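import Fermat.Agent.CM.Quartic.Periodic
import Fermat.Agent.Deform.EigenLift
import Mathlib.NumberTheory.Zsqrtd.QuadraticReciprocity

/-!
# The Hecke series of a Grössencharakter of `ℚ(i)`

For a weight `φ` of `E = D` the numbers `∑ φ (α) α`, over primary `α` of norm `n`, are multiplicative
and satisfy at every prime the recursion of the L-function of a curve with additive reduction at
the primes dividing `2 E`.
-/

set_option autoImplicit false

noncomputable section

namespace FA.CM.Quartic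

local notation "ℤ[i]" => GaussianInt

open scoped Classical in
/-- The primary elements of norm `n`. -/
def primarySet (n : ℕ) : Finset ℤ[i] :=
  ((Finset.Icc (-(n : ℤ)) n ×ˢ Finset.Icc (-(n : ℤ)) n).image fun x => (⟨x.1, x.2⟩ : ℤ[i])).filter
    fun α => IsPrimary α ∧ α.norm = n

theorem mem_primarySet {n : ℕ} {α : ℤ[i]} :
    α ∈ primarySet n ↔ IsPrimary α ∧ α.norm = n := by
  simp only [primarySet, Finset.mem_filter, and_iff_right_iff_imp, Finset.mem_image]
  rintro ⟨-, h⟩
  rw [Zsqrtd.norm_def] at h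
  refine ⟨(α.re, α.im), ?_, rfl⟩
  simp only [Finset.mem_product, Finset.mem_Icc]
  refine ⟨⟨?_, ?_⟩, ?_, ?_⟩ <;>
    nlinarith [Int.le_self_sq α.re, Int.le_self_sq (-α.re), Int.le_self_sq α.im,
      Int.le_self_sq (-α.im)]

/-- `∑ φ (α) α`. -/
def primarySum (φ : ℤ[i] → ℤ[i]) (n : ℕ) : ℤ[i] := ∑ α ∈ primarySet n, φ α * α

theorem primarySet_zero : primarySet 0 = ∅ := by
  refine Finset.eq_empty_iff_forall_notMem.mpr fun α hα => ?_
  obtain ⟨h, hn⟩ := mem_primarySet.mp hα
  have := h.norm_mod_four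
  omega

theorem IsPrimary.of_mul {α β : ℤ[i]} (hα : IsPrimary α) (h : IsPrimary (α * β)) : IsPrimary β := by
  obtain ⟨s, t, e1, e2⟩ := hα.exists_eq
  obtain ⟨h1, h2⟩ := h
  simp only [Zsqrtd.re_mul, Zsqrtd.im_mul, e1, e2] at h1 h2
  ring_nf at h1 h2
  have h3 : β.im % 2 = 0 := by omega
  refine ⟨h3, ?_⟩
  obtain ⟨u, hu⟩ := Int.dvd_of_emod_eq_zero h3
  rw [hu] at h2 ⊢
  ring_nf at h2
  omega

theorem primarySum_one {D : ℤ} {φ : ℤ[i] → ℤ[i]} (hφ : IsWeight D φ) : primarySum φ 1 = 1 := by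
  have h : primarySet 1 = {1} := by
    refine Finset.eq_singleton_iff_unique_mem.mpr
      ⟨mem_primarySet.mpr ⟨by simp [IsPrimary], by simp⟩, fun α hα => ?_⟩
    obtain ⟨⟨h1, h2⟩, hn⟩ := mem_primarySet.mp hα
    rw [Zsqrtd.norm_def] at hn
    push_cast at hn
    have hb : α.im = 0 := by
      by_contra hb
      obtain ⟨u, hu⟩ := Int.dvd_of_emod_eq_zero h1
      rw [hu] at hn hb
      rcases lt_or_gt_of_ne (show u ≠ 0 by omega) with h | h <;> nlinarith
    rw [hb] at hn h2
    rcases Int.eq_one_or_neg_one_of_mul_eq_one (show α.re * α.re = 1 by linarith) with e | e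
    · exact Zsqrtd.ext (by simpa using e) (by simpa using hb)
    · omega
  rw [primarySum, h, Finset.sum_singleton, mul_one, ← Int.cast_one,
    hφ.map_int 1 (by norm_num) isCoprime_one_left, Int.cast_one]

/-- Removing a primary factor. -/
theorem sum_image_mul {D : ℤ} {φ : ℤ[i] → ℤ[i]} (hφ : IsWeight D φ) {π : ℤ[i]} (hπ : IsPrimary π)
    (n : ℕ) :
    ∑ α ∈ (primarySet n).image (π * ·), φ α * α = φ π * π * primarySum φ n := by
  classical
  rw [Finset.sum_image fun x _ y _ h => mul_left_cancel₀ hπ.ne_zero h, primarySum, Finset.mul_sum]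
  refine Finset.sum_congr rfl fun β hβ => ?_
  rw [hφ.map_mul π β hπ (mem_primarySet.mp hβ).1]
  ring

theorem mem_image_mul {π : ℤ[i]} (hπ : IsPrimary π) {k n : ℕ} (hk : π.norm = k) (hk0 : 0 < k)
    {α : ℤ[i]} :
    α ∈ (primarySet n).image (π * ·) ↔ α ∈ primarySet (k * n) ∧ π ∣ α := by
  simp only [Finset.mem_image, mem_primarySet]
  constructor
  · rintro ⟨β, ⟨h1, h2⟩, rfl⟩
    exact ⟨⟨hπ.mul h1, by rw [Zsqrtd.norm_mul, hk, h2, Nat.cast_mul]⟩, dvd_mul_right _ _⟩
  · rintro ⟨⟨h1, h2⟩, β, rfl⟩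
    refine ⟨β, ⟨hπ.of_mul h1, ?_⟩, rfl⟩
    rw [Zsqrtd.norm_mul, hk, Nat.cast_mul] at h2
    exact mul_left_cancel₀ (by exact_mod_cast hk0.ne') h2

theorem quarticChar_neg_apply {p : ℕ} [Fact p.Prime] {j : ZMod p} (hj : j * j = -1)
    (hj' : -j * -j = -1) (hp2 : p ≠ 2) :
    primaryPrime hj' hp2 = star (primaryPrime hj hp2) := by
  have e : ∀ x, quarticChar hj' hp2 x = star (quarticChar hj hp2 x) := quarticChar_neg hj hp2 hj'
  simp only [primaryPrime, jacobiSum, e, star_mul', star_neg, star_sum]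

section recursion

variable {D : ℤ} {φ : ℤ[i] → ℤ[i]} (hφ : IsWeight D φ)
include hφ

theorem primarySum_bad {p : ℕ} (hp : p.Prime) (h : p = 2 ∨ (p : ℤ) ∣ D) (n : ℕ) :
    primarySum φ (p * n) = 0 := by
  refine Finset.sum_eq_zero fun α hmem => ?_
  obtain ⟨hα, hn⟩ := mem_primarySet.mp hmem
  rcases eq_or_ne p 2 with rfl | hp2
  · have := hα.norm_mod_four
    push_cast at hn
    omega
  rw [hφ.map_eq_zero α hα p hp hp2 (h.resolve_left hp2) ⟨n, by rw [hn, Nat.cast_mul]⟩, zero_mul]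

theorem primarySum_inert {p : ℕ} [hp : Fact p.Prime] (hp3 : p % 4 = 3) (hpD : ¬ (p : ℤ) ∣ D)
    (n : ℕ) :
    primarySum φ (p * n) + (if p ∣ n then (p : ℤ[i]) * primarySum φ (n / p) else 0) = 0 := by
  classical
  set π : ℤ[i] := ((-(p : ℤ) : ℤ) : ℤ[i]) with hπ
  have hπp : IsPrimary π := isPrimary_intCast (by omega)
  have hπn : π.norm = (p * p : ℕ) := by rw [hπ, Zsqrtd.norm_intCast]; push_cast; ring
  have hφπ : φ π = 1 := hφ.map_int _ (by omega)
    (((Nat.prime_iff_prime_int.mp hp.out).coprime_iff_not_dvd.mpr hpD).neg_left)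
  have hdiv : ∀ α ∈ primarySet (p * n), π ∣ α ∧ p ∣ n := fun α hα => by
    have hpr := GaussianInt.prime_of_nat_prime_of_mod_four_eq_three p hp3
    have h1 : (p : ℤ[i]) ∣ α * star α := by
      rw [← Zsqrtd.norm_eq_mul_conj, (mem_primarySet.mp hα).2]
      exact ⟨(n : ℤ[i]), by push_cast; ring⟩
    have h2 : (p : ℤ[i]) ∣ α := by
      rcases hpr.dvd_mul.mp h1 with h | h
      · exact h
      · obtain ⟨β, hβ⟩ := h
        exact ⟨star β, by rw [← star_star α, hβ, star_mul', star_natCast]⟩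
    refine ⟨by rw [hπ, Int.cast_neg, Int.cast_natCast]; exact neg_dvd.mpr h2, ?_⟩
    obtain ⟨β, rfl⟩ := h2
    have := (mem_primarySet.mp hα).2
    rw [Zsqrtd.norm_mul, Zsqrtd.norm_natCast, Nat.cast_mul, mul_assoc] at this
    exact Int.natCast_dvd_natCast.mp ⟨β.norm,
      (mul_left_cancel₀ (Int.natCast_ne_zero.mpr hp.out.ne_zero) this).symm⟩
  by_cases hn : p ∣ n
  · obtain ⟨m, rfl⟩ := hn
    have he : primarySet (p * (p * m)) = (primarySet m).image (π * ·) := by
      ext α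
      rw [mem_image_mul hπp hπn (Nat.mul_pos hp.out.pos hp.out.pos), mul_assoc]
      exact ⟨fun h => ⟨h, (hdiv α h).1⟩, And.left⟩
    rw [if_pos (dvd_mul_right p m), Nat.mul_div_cancel_left _ hp.out.pos, primarySum, he,
      sum_image_mul hφ hπp, hφπ, one_mul, hπ, Int.cast_neg, Int.cast_natCast, neg_mul,
      neg_add_cancel]
  · rw [if_neg hn, add_zero]
    exact Finset.sum_eq_zero fun α hα => absurd (hdiv α hα).2 hn

theorem primarySum_split {p : ℕ} [hp : Fact p.Prime] {j : ZMod p} (hj : j * j = -1) (hp2 : p ≠ 2)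
    (hpD : ¬ (p : ℤ) ∣ D) (n : ℕ) :
    primarySum φ (p * n) + (if p ∣ n then (p : ℤ[i]) * primarySum φ (n / p) else 0) =
      (quarticChar hj hp2 (D : ZMod p) * primaryPrime hj hp2 +
        star (quarticChar hj hp2 (D : ZMod p) * primaryPrime hj hp2)) * primarySum φ n := by
  classical
  set π := primaryPrime hj hp2 with hπ
  have hj' : -j * -j = -1 := by rw [neg_mul_neg, hj]
  have hD : (D : ZMod p) ≠ 0 := by rwa [Ne, ZMod.intCast_zmod_eq_zero_iff_dvd]
  have hπ' : primaryPrime hj' hp2 = star π := quarticChar_neg_apply hj hj' hp2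
  have hπp : IsPrimary π := isPrimary_primaryPrime hj hp2
  have hπsp : IsPrimary (star π) := hπ' ▸ isPrimary_primaryPrime hj' hp2
  have hn1 : π.norm = p := norm_primaryPrime hj hp2
  have hn2 : (star π).norm = p := by rw [Zsqrtd.norm_conj, hn1]
  have e1 : φ π = quarticChar hj hp2 (D : ZMod p) := hφ.map_primaryPrime p j hj hp2 hD
  have e2 : φ (star π) = star (quarticChar hj hp2 (D : ZMod p)) := by
    rw [← hπ', hφ.map_primaryPrime p (-j) hj' hp2 hD, quarticChar_neg hj hp2 hj']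
  have hirr : ∀ {x : ℤ[i]}, x.norm = p → Prime x := fun {x} hx => Irreducible.prime
    ⟨fun hu => hp.out.ne_one (by
        have := Zsqrtd.norm_eq_one_iff.mpr hu; rw [hx, Int.natAbs_natCast] at this; exact this),
      fun a b hab => by
        rw [← Zsqrtd.norm_eq_one_iff, ← Zsqrtd.norm_eq_one_iff]
        have h : a.norm.natAbs * b.norm.natAbs = p := by
          rw [← Int.natAbs_mul, ← Zsqrtd.norm_mul, ← hab, hx, Int.natAbs_natCast]
        exact (hp.out.eq_one_or_self_of_dvd _ ⟨_, h.symm⟩).imp id fun ha =>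
          mul_left_cancel₀ hp.out.ne_zero (by rw [mul_one]; conv_rhs => rw [← h, ha])⟩
  have hmul : π * star π = ((p : ℤ) : ℤ[i]) := by
    rw [Int.cast_natCast]; exact primaryPrime_mul_star hj hp2
  -- `π` and its conjugate are not associated
  have hndvd : ¬ π ∣ star π := by
    rintro ⟨c, hc⟩
    have h := evalI_primaryPrime hj' hp2
    rw [hπ'] at h
    have h' : evalI hj (star π) = 0 := by rw [hc, map_mul, evalI_primaryPrime, zero_mul]
    rw [evalI_apply] at h h'
    simp only [Zsqrtd.re_star, Zsqrtd.im_star, Int.cast_neg] at h h'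
    have hre : (π.re : ZMod p) = 0 := (mul_eq_zero.mp
      (show (2 : ZMod p) * (π.re : ZMod p) = 0 by linear_combination h + h')).resolve_left
      (two_ne_zero' hp2)
    obtain ⟨u, hu⟩ := (ZMod.intCast_zmod_eq_zero_iff_dvd π.re p).mp hre
    have hn := hn1
    rw [Zsqrtd.norm_def, hu] at hn
    obtain ⟨h1, h2⟩ := hπp
    rw [hu] at h2
    have hu0 : u ≠ 0 := fun e => by rw [e, mul_zero] at h2; omega
    have : 0 < u * u := mul_self_pos.mpr hu0
    have := hp.out.two_le
    nlinarith [mul_self_nonneg π.im, mul_le_mul_of_nonneg_left (show (1 : ℤ) ≤ u * u by omega)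
      (mul_self_nonneg (p : ℤ))]
  set A := (primarySet n).image (π * ·)
  set B := (primarySet n).image (star π * ·)
  have hAB : A ∪ B = primarySet (p * n) := by
    ext α
    rw [Finset.mem_union, mem_image_mul hπp hn1 hp.out.pos, mem_image_mul hπsp hn2 hp.out.pos]
    refine ⟨fun h => h.elim And.left And.left, fun h => ?_⟩
    have h1 : π ∣ α * star α := by
      rw [← Zsqrtd.norm_eq_mul_conj, (mem_primarySet.mp h).2]
      exact ⟨star π * (n : ℤ[i]), by rw [← mul_assoc, hmul]; push_cast; ring⟩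
    rcases (hirr hn1).dvd_mul.mp h1 with h' | ⟨β, hβ⟩
    · exact Or.inl ⟨h, h'⟩
    · exact Or.inr ⟨h, star β, by rw [← star_star α, hβ, star_mul']⟩
  have hint : A ∩ B = if p ∣ n then
      (primarySet (n / p)).image (((p : ℤ) : ℤ[i]) * ·) else ∅ := by
    have hdvd : ∀ α, (α ∈ A ∩ B) ↔ α ∈ primarySet (p * n) ∧ ((p : ℤ) : ℤ[i]) ∣ α := fun α => by
      rw [Finset.mem_inter, mem_image_mul hπp hn1 hp.out.pos, mem_image_mul hπsp hn2 hp.out.pos]
      refine ⟨fun ⟨⟨h, β, hβ⟩, _, h2⟩ => ⟨h, ?_⟩, fun ⟨h, h'⟩ => ?_⟩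
      · subst hβ
        obtain ⟨γ, rfl⟩ := ((hirr hn2).dvd_mul.mp h2).resolve_left fun h' =>
          hndvd (by obtain ⟨c, hc⟩ := h'; exact ⟨star c, by
            conv_lhs => rw [hc, star_mul', star_star]⟩)
        exact ⟨γ, by rw [← mul_assoc, hmul]⟩
      · rw [← hmul] at h'
        exact ⟨⟨h, dvd_of_mul_right_dvd h'⟩, h, dvd_of_mul_left_dvd h'⟩
    split_ifs with hn
    · obtain ⟨m, rfl⟩ := hn
      ext α
      rw [hdvd, Nat.mul_div_cancel_left _ hp.out.pos,
        mem_image_mul (isPrimary_intCast (by have := mod_four_eq_one hj hp2; omega))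
          (k := p * p) (by rw [Zsqrtd.norm_intCast]; push_cast; ring)
          (Nat.mul_pos hp.out.pos hp.out.pos), mul_assoc]
    · refine Finset.eq_empty_iff_forall_notMem.mpr fun α hα => ?_
      obtain ⟨h, β, rfl⟩ := (hdvd α).mp hα
      have := (mem_primarySet.mp h).2
      rw [Zsqrtd.norm_mul, Zsqrtd.norm_intCast, Nat.cast_mul, mul_assoc] at this
      exact hn (Int.natCast_dvd_natCast.mp ⟨β.norm,
        (mul_left_cancel₀ (Int.natCast_ne_zero.mpr hp.out.ne_zero) this).symm⟩)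
  have h := Finset.sum_union_inter (s₁ := A) (s₂ := B) (f := fun α => φ α * α)
  rw [hAB, hint, sum_image_mul hφ hπp, sum_image_mul hφ hπsp, e1, e2] at h
  rw [star_mul', add_mul, ← h, primarySum]
  congr 1
  split_ifs with hn
  · rw [sum_image_mul hφ (isPrimary_intCast (by have := mod_four_eq_one hj hp2; omega)),
      hφ.map_int _ (by have := mod_four_eq_one hj hp2; omega)
        ((Nat.prime_iff_prime_int.mp hp.out).coprime_iff_not_dvd.mpr hpD),
      one_mul, Int.cast_natCast]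
  · rw [Finset.sum_empty]

end recursion

end FA.CM.Quartic

end
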