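import Fermat.Agent.CM.Quartic.Coeff
import Fermat.Agent.CM.CongruentCurves

/-!
# The L-function of a curve with `j = 1728`

Such a curve has `c₆ = 0` and `c₄ = -48 D t⁴` with `D` free of fourth powers. It has additive
reduction at the primes dividing `2 D`, and all coefficients of its L-function are the sums
`∑ φ (α) α` over primary `α` for a weight `φ` of `4 D³`.
-/

set_option autoImplicit false

noncomputable section

open WeierstrassCurve IsDedekindDomain NumberField IsLocalRing IsDedekindDomain.HeightOneSpectrum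
  IsDiscreteValuationRing
open Rat.HeightOneSpectrum (primesEquiv)

namespace FA.CM.Quartic

local notation "ℤ[i]" => GaussianInt

/-- Away from `2`, a prime dividing `D` to an exponent prime to `4` is of additive reduction. -/
theorem localPolynomial_eq_one_of_quartic {R K : Type*} [CommRing R] [IsDomain R]
    [IsDiscreteValuationRing R] [Field K] [Algebra R K] [IsFractionRing R K] {p : ℕ}
    [Fact p.Prime] (hp2 : p ≠ 2) (hϖ : Irreducible (p : R)) (e : ResidueField R ≃+* ZMod p)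
    (E : WeierstrassCurve K) {x : K} (hx : x ≠ 0) {k : ℕ} (hk : k = 1 ∨ k = 2 ∨ k = 3) {m : ℤ}
    (hm : ¬ (p : ℤ) ∣ m) (h4 : E.c₄ = x ^ 4 * ((p : K) ^ k * (m : K) * (-48 : ℤ)))
    (hΔ : E.Δ = x ^ 12 * ((p : K) ^ k * (m : K)) ^ 3 * (-64 : ℤ)) :
    E.localPolynomial R = 1 := by
  set M := E.minimal R with hM
  set val := valuation K (IsDiscreteValuationRing.maximalIdeal R)
  suffices hno : val M.Δ ≠ 1 ∧ val M.c₄ ≠ 1 by
    rw [localPolynomial, if_neg fun h : M.HasGoodReduction R => hno.1 h.goodReduction,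
      if_neg fun h : M.HasSplitMultiplicativeReduction R =>
        hno.2 h.toHasMultiplicativeReduction.multiplicativeReduction,
      if_neg fun h : M.HasMultiplicativeReduction R => hno.2 h.multiplicativeReduction]
  set J := integralModel R M with hJ
  have hJK : J.map (algebraMap R K) = M := baseChange_integralModel_eq R _
  have hM4 : val M.c₄ ≤ 1 := by rw [← hJK, map_c₄]; exact valuation_le_one _ _
  have hMΔ : val M.Δ ≤ 1 := by rw [← hJK, map_Δ]; exact valuation_le_one _ _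
  obtain ⟨y, hy, hy4, hyΔ⟩ : ∃ y : K, y ≠ 0 ∧ M.c₄ = y ^ 4 * ((p : K) ^ k * (m : K) * (-48 : ℤ)) ∧
      M.Δ = y ^ 12 * ((p : K) ^ k * (m : K)) ^ 3 * (-64 : ℤ) := by
    refine ⟨(((E.exists_isMinimal R).choose.u⁻¹ : Kˣ) : K) * x,
      mul_ne_zero (Units.ne_zero _) hx, ?_, ?_⟩
    · rw [hM, WeierstrassCurve.minimal, variableChange_c₄, h4]; ring
    · rw [hM, WeierstrassCurve.minimal, variableChange_Δ, hΔ]; ring
  have hvp : val (p : K) = WithZero.exp (-1 : ℤ) := by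
    rw [← map_natCast (algebraMap R K)]
    show valuation K _ (algebraMap R K (p : R)) = _
    rw [valuation_of_algebraMap]
    exact intValuation_singleton _ hϖ.ne_zero hϖ.maximalIdeal_eq
  have hunit : ∀ n : ℤ, ¬ (p : ℤ) ∣ n → val (n : K) = 1 := fun n hn => by
    rw [← map_intCast (algebraMap R K), FA.Root.valuation_eq_one_iff_residue, ne_eq,
      FA.Root.residue_intCast_eq_zero_iff e]
    exact hn
  have hpp := (Fact.out : p.Prime)
  have h2 : ¬ (p : ℤ) ∣ 2 := fun h => hp2 ((Nat.prime_dvd_prime_iff_eq hpp Nat.prime_two).mp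
    (Int.natCast_dvd_natCast.mp h))
  have h64 : val ((-64 : ℤ) : K) = 1 := hunit _ fun h => h2 ((Nat.prime_iff_prime_int.mp hpp).dvd_of_dvd_pow
    (n := 6) (dvd_neg.mp h))
  obtain ⟨δ, hδ, hδ1⟩ : ∃ δ : ℕ, val ((-48 : ℤ) : K) = WithZero.exp (-(δ : ℤ)) ∧ δ ≤ 1 := by
    rcases eq_or_ne p 3 with rfl | hp3
    · refine ⟨1, ?_, le_rfl⟩
      rw [show ((-48 : ℤ) : K) = (3 : ℕ) * ((-16 : ℤ) : K) by push_cast; ring, map_mul, hvp,
        hunit _ (by decide), mul_one]
      rfl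
    · refine ⟨0, ?_, zero_le_one⟩
      rw [hunit _ fun h => ?_, Nat.cast_zero, neg_zero, WithZero.exp_zero]
      have h' : p ∣ 2 ^ 4 * 3 := Int.natCast_dvd_natCast.mp (dvd_neg.mp h)
      rcases hpp.dvd_mul.mp h' with h | h
      · exact hp2 ((Nat.prime_dvd_prime_iff_eq hpp Nat.prime_two).mp (hpp.dvd_of_dvd_pow h))
      · exact hp3 ((Nat.prime_dvd_prime_iff_eq hpp Nat.prime_three).mp h)
  have hvy : val y ≠ 0 := (map_ne_zero _).mpr hy
  have e4 : val M.c₄ = WithZero.exp (4 * WithZero.log (val y) + ((k : ℤ) * -1 + -(δ : ℤ))) := by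
    conv_lhs => rw [hy4, map_mul, map_mul, map_mul, map_pow, map_pow, hvp, hunit m hm, mul_one, hδ,
      ← WithZero.exp_log hvy, ← WithZero.exp_nsmul, ← WithZero.exp_nsmul, ← WithZero.exp_add,
      ← WithZero.exp_add]
    congr 1
  have eΔ : val M.Δ = WithZero.exp (12 * WithZero.log (val y) + 3 * ((k : ℤ) * -1)) := by
    conv_lhs => rw [hyΔ, map_mul, map_mul, map_pow, map_pow, map_mul, map_pow, hvp, hunit m hm,
      mul_one, h64, mul_one, ← WithZero.exp_log hvy, ← WithZero.exp_nsmul, ← WithZero.exp_nsmul,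
      ← WithZero.exp_nsmul, ← WithZero.exp_add]
    congr 1
  rw [e4, ← WithZero.exp_zero, WithZero.exp_le_exp] at hM4
  rw [eΔ, ← WithZero.exp_zero, WithZero.exp_le_exp] at hMΔ
  rw [e4, eΔ, ← WithZero.exp_zero, Ne, Ne, WithZero.exp_inj, WithZero.exp_inj]
  omega

variable {E : WeierstrassCurve ℚ} {D : ℤ} {x : ℚ}

/-- The coefficients at the powers of an odd prime dividing `D`. -/
theorem LFunction_prime_pow_of_dvd (hD : D ≠ 0) (hfree : ∀ q : ℕ, q.Prime → ¬ (q : ℤ) ^ 4 ∣ D)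
    (hx : x ≠ 0) (h4 : E.c₄ = x ^ 4 * (-48 * D)) (h6 : E.c₆ = 0) {p : ℕ} (hp : p.Prime)
    (hp2 : p ≠ 2) (hpD : (p : ℤ) ∣ D) (r : ℕ) : E.LFunction (p ^ (r + 1)) = 0 := by
  obtain ⟨v, rfl⟩ : ∃ v : HeightOneSpectrum (𝓞 ℚ), (primesEquiv v : ℕ) = p :=
    ⟨primesEquiv.symm (⟨p, hp⟩ : Nat.Primes),
      congrArg Subtype.val (primesEquiv.apply_symm_apply (⟨p, hp⟩ : Nat.Primes))⟩
  have := Fact.mk hp
  set q : ℕ := (primesEquiv v : ℕ)
  obtain ⟨k, hk, m, hm, hDm⟩ : ∃ k : ℕ, (k = 1 ∨ k = 2 ∨ k = 3) ∧ ∃ m : ℤ,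
      ¬ (q : ℤ) ∣ m ∧ D = (q : ℤ) ^ k * m := by
    obtain ⟨a, rfl⟩ := hpD
    by_cases h1 : (q : ℤ) ∣ a
    · obtain ⟨b, rfl⟩ := h1
      by_cases h2 : (q : ℤ) ∣ b
      · obtain ⟨c, rfl⟩ := h2
        exact ⟨3, by simp, c, fun ⟨d, hd⟩ => hfree q hp ⟨d, by rw [hd]; ring⟩, by ring⟩
      · exact ⟨2, by simp, b, h2, by ring⟩
    · exact ⟨1, by simp, a, h1, by ring⟩
  have hΔ : E.Δ = x ^ 12 * (D : ℚ) ^ 3 * -64 := by
    refine mul_left_cancel₀ (show (1728 : ℚ) ≠ 0 by norm_num) ?_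
    rw [E.c_relation, h4, h6]; ring
  set g := algebraMap ℚ (v.adicCompletion ℚ) with hg
  have hϖ : Irreducible ((q : ℕ) : v.adicCompletionIntegers ℚ) := by
    rw [← MulEquiv.irreducible_iff
      (Rat.HeightOneSpectrum.adicCompletionIntegers.padicIntEquiv v).toRingEquiv, map_natCast]
    exact PadicInt.irreducible_p
  rw [FA.Root.LFunction_apply_prime_pow, WeierstrassCurve.localPowerSeries,
    localPolynomial_eq_one_of_quartic hp2 hϖ (FA.Root.residueEquivZMod v)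
      (E.baseChange (v.adicCompletion ℚ)) (x := g x) ((map_ne_zero g).mpr hx) hk hm
      (by show (E.map g).c₄ = _
          rw [map_c₄, h4, hDm]
          simp only [map_mul, map_pow, map_neg, map_ofNat, map_intCast, map_natCast, Int.cast_mul,
            Int.cast_pow, Int.cast_natCast, Int.cast_neg, Int.cast_ofNat]
          ring)
      (by show (E.map g).Δ = _; rw [map_Δ, hΔ, hDm]; simp),
    show (1 : Polynomial ℤ) = 1 - Polynomial.C 0 * Polynomial.X by simp,
    FA.Root.coeff_invOfUnit_linear, zero_pow (Nat.succ_ne_zero r)]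

/-- **All coefficients of the L-function.** -/
theorem LFunction_eq_primarySum (hD : D ≠ 0) (hfree : ∀ q : ℕ, q.Prime → ¬ (q : ℤ) ^ 4 ∣ D)
    (hx : x ≠ 0) (h4 : E.c₄ = x ^ 4 * (-48 * D)) (h6 : E.c₆ = 0) {φ : ℤ[i] → ℤ[i]}
    (hφ : IsWeight (4 * D ^ 3) φ) (n : ℕ) : (E.LFunction n : ℤ[i]) = primarySum φ n := by
  have hL := FA.Root.isMultiplicative_LFunction E
  set W : WeierstrassCurve ℤ := ⟨0, 0, 0, D, 0⟩ with hW
  have hWE : W.IsIntegralModelOf E := FA.Twists.isIntegralModelOf_of_invariants (inv_ne_zero hx)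
    (by rw [h4]; simp [hW, c₄, b₂, b₄]; field_simp; ring) (by rw [h6]; simp [hW, c₆, b₂, b₄, b₆])
  have hWΔ : W.Δ = -64 * D ^ 3 := by
    simp only [hW, WeierstrassCurve.Δ, b₂, b₄, b₆, b₈]; ring
  -- the bad primes
  have hbad : ∀ p : ℕ, p.Prime → (p = 2 ∨ (p : ℤ) ∣ D) → ∀ r, E.LFunction (p ^ (r + 1)) = 0 := by
    intro p hp h r
    rcases eq_or_ne p 2 with rfl | hp2
    · exact FA.CM.LFunction_two_pow_of_c₆ E h6 r
    · exact LFunction_prime_pow_of_dvd hD hfree hx h4 h6 hp hp2 (h.resolve_left hp2) r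
  have hgood : ∀ p : ℕ, p.Prime → ¬ (p = 2 ∨ (p : ℤ) ∣ D) →
      ¬ (p : ℤ) ∣ W.Δ ∧ ¬ (p : ℤ) ∣ 4 * D ^ 3 := fun p hp h => by
    rw [not_or] at h
    have hq := Nat.prime_iff_prime_int.mp hp
    have h2 : ¬ (p : ℤ) ∣ 2 := fun h' => h.1 ((Nat.prime_dvd_prime_iff_eq hp Nat.prime_two).mp
      (Int.natCast_dvd_natCast.mp h'))
    refine ⟨fun h' => ?_, fun h' => ?_⟩
    · rw [hWΔ, neg_mul, dvd_neg] at h'
      rcases hq.dvd_mul.mp h' with h' | h'
      exacts [h2 (hq.dvd_of_dvd_pow (n := 6) h'), h.2 (hq.dvd_of_dvd_pow h')]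
    · rcases hq.dvd_mul.mp h' with h' | h'
      exacts [h2 (hq.dvd_of_dvd_pow (n := 2) h'), h.2 (hq.dvd_of_dvd_pow h')]
  -- the recursion of the sums
  have hrec : ∀ p : ℕ, p.Prime → ∀ m, primarySum φ (p * m) +
      (if p ∣ m then (if p = 2 ∨ (p : ℤ) ∣ D then 0 else (p : ℤ[i])) * primarySum φ (m / p) else 0) =
      (if p = 2 ∨ (p : ℤ) ∣ D then 0 else (W.apOfModel p : ℤ[i])) * primarySum φ m := by
    intro p hp m
    have := Fact.mk hp
    by_cases hb : p = 2 ∨ (p : ℤ) ∣ D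
    · simp only [if_pos hb, zero_mul, ite_self, add_zero]
      refine primarySum_bad hφ hp (hb.imp id fun h => ?_) m
      exact (dvd_pow h three_ne_zero).mul_left 4
    simp only [if_neg hb]
    obtain ⟨-, h4D⟩ := hgood p hp hb
    rw [not_or] at hb
    obtain ⟨hp2, hpD⟩ := hb
    have hD' : (D : ZMod p) ≠ 0 := by rwa [Ne, ZMod.intCast_zmod_eq_zero_iff_dvd]
    rcases (show p % 4 = 1 ∨ p % 4 = 3 by have := hp.eq_two_or_odd; omega) with h | h
    · obtain ⟨j, hj⟩ := (ZMod.exists_sq_eq_neg_one_iff (p := p)).mpr (show p % 4 ≠ 3 by omega)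
      rw [hW, apOfModel_quartic_one hj.symm hp2 hD', primarySum_split hφ hj.symm hp2 h4D,
        show (((4 * D ^ 3 : ℤ)) : ZMod p) = 4 * (D : ZMod p) ^ 3 by push_cast; rfl]
    · rw [hW, apOfModel_quartic_three h hD', Int.cast_zero, zero_mul, primarySum_inert hφ h h4D]
  have h0 : primarySum φ 0 = 0 := by rw [primarySum, primarySet_zero, Finset.sum_empty]
  have hone := primarySum_one hφ
  induction n using Nat.recOnPosPrimePosCoprime with
  | zero => rw [ArithmeticFunction.map_zero, Int.cast_zero, h0]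
  | one => rw [hL.map_one, Int.cast_one, hone]
  | coprime a b _ _ hab iha ihb =>
    rw [hL.map_mul_of_coprime hab, Int.cast_mul, iha, ihb]
    refine GaussianInt.toComplex_injective ?_
    rw [map_mul]
    refine (FA.Deform.mul_of_coprime_of_rec
      (c := fun k => GaussianInt.toComplex (primarySum φ k))
      (e := fun p => GaussianInt.toComplex (if p = 2 ∨ (p : ℤ) ∣ D then 0 else (p : ℤ[i])))
      (lam := fun p => GaussianInt.toComplex
        (if p = 2 ∨ (p : ℤ) ∣ D then 0 else (W.apOfModel p : ℤ[i])))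
      (by rw [h0, map_zero]) (by rw [hone, map_one]) (fun p hp k => ?_) a b hab).symm
    have := congrArg GaussianInt.toComplex (hrec p hp k)
    rw [map_add, map_mul, apply_ite GaussianInt.toComplex (p ∣ k), map_mul, map_zero,
      mul_comm p k] at this
    exact this
  | prime_pow p k hp hk =>
    clear hk
    induction k using Nat.twoStepInduction with
    | zero => rw [pow_zero, hL.map_one, Int.cast_one, hone]
    | one =>
      have h := hrec p hp 1
      rw [if_neg hp.not_dvd_one, add_zero, mul_one, hone, mul_one] at h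
      rw [pow_one, h]
      split_ifs with hb
      · rw [show E.LFunction p = 0 by simpa using hbad p hp hb 0, Int.cast_zero]
      · rw [FA.Root.LFunction_apply_prime E W hWE hp (hgood p hp hb).1]
    | more r ih₀ ih₁ =>
      have h := hrec p hp (p ^ (r + 1))
      rw [if_pos (dvd_pow_self p (Nat.succ_ne_zero r)), ← pow_succ',
        show p ^ (r + 1) / p = p ^ r by rw [pow_succ, Nat.mul_div_cancel _ hp.pos]] at h
      rw [eq_sub_of_add_eq h, ← ih₀, ← ih₁]
      split_ifs with hb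
      · rw [hbad p hp hb, Int.cast_zero, zero_mul, zero_mul, sub_zero]
      · rw [FA.Root.LFunction_apply_prime_pow_good E W hWE hp (hgood p hp hb).1]
        push_cast
        ring

/-- The invariants of a curve with `j = 1728`. -/
theorem exists_invariants_of_j_eq_1728 (E : WeierstrassCurve ℚ) [E.IsElliptic] (hj : E.j = 1728) :
    ∃ (D : ℤ) (x : ℚ), D ≠ 0 ∧ (∀ q : ℕ, q.Prime → ¬ (q : ℤ) ^ 4 ∣ D) ∧ x ≠ 0 ∧
      E.c₄ = x ^ 4 * (-48 * D) ∧ E.c₆ = 0 := by
  have hΔ0 : E.Δ ≠ 0 := E.isUnit_Δ.ne_zero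
  have ej : E.c₄ ^ 3 = 1728 * E.Δ := by
    rw [← hj, WeierstrassCurve.j, Units.val_inv_eq_inv_val, coe_Δ']; field_simp
  have h6 : E.c₆ = 0 := pow_eq_zero_iff two_ne_zero |>.mp (by linear_combination E.c_relation + ej)
  have h4 : E.c₄ ≠ 0 := fun e => hΔ0 (by rw [e] at ej; linarith)
  suffices h : ∀ n : ℕ, ∀ D : ℤ, D.natAbs = n → D ≠ 0 → ∀ x : ℚ, x ≠ 0 →
      E.c₄ = x ^ 4 * (-48 * D) → ∃ (D : ℤ) (x : ℚ), D ≠ 0 ∧
        (∀ q : ℕ, q.Prime → ¬ (q : ℤ) ^ 4 ∣ D) ∧ x ≠ 0 ∧ E.c₄ = x ^ 4 * (-48 * D) ∧ E.c₆ = 0 by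
    set z := E.c₄ / -48 with hz
    have hz0 : z.num ≠ 0 := Rat.num_ne_zero.mpr (div_ne_zero h4 (by norm_num))
    refine h _ (z.num * (z.den : ℤ) ^ 3) rfl (mul_ne_zero hz0 (pow_ne_zero _ (by simp)))
      (1 / z.den : ℚ) (by simp) ?_
    have hd : (z.den : ℚ) ≠ 0 := Nat.cast_ne_zero.mpr z.den_nz
    have he : (z.num : ℚ) = z * z.den := (Rat.mul_den_eq_num z).symm
    rw [show E.c₄ = -48 * z by rw [hz]; ring]
    push_cast
    rw [he]
    field_simp
  intro n
  induction n using Nat.strong_induction_on with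
  | _ n ih =>
    intro D hn hD x hx h
    by_cases hq : ∀ q : ℕ, q.Prime → ¬ (q : ℤ) ^ 4 ∣ D
    · exact ⟨D, x, hD, hq, hx, h, h6⟩
    push Not at hq
    obtain ⟨q, hq, c, rfl⟩ := hq
    refine ih c.natAbs ?_ c rfl (right_ne_zero_of_mul hD) (x * q)
      (mul_ne_zero hx (Nat.cast_ne_zero.mpr hq.ne_zero)) (by rw [h]; push_cast; ring)
    rw [← hn, Int.natAbs_mul, Int.natAbs_pow, Int.natAbs_natCast]
    exact lt_mul_of_one_lt_left (Int.natAbs_pos.mpr (right_ne_zero_of_mul hD))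
      (Nat.one_lt_pow four_ne_zero hq.one_lt)

end FA.CM.Quartic

end
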