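import Fermat.Agent.CM.Quartic.Weight
import Fermat.Agent.CM.LatticeTheta
import Fermat.Agent.CM.Curve32

/-!
# Every elliptic curve with `j = 1728` is modular

All coefficients of the L-function of `y² = x³ + D x` are those of a normalised eigenform of weight
two, the theta series of `ℤ[i]` with the quartic Grössencharakter, so the L-series is entire.
-/

set_option autoImplicit false

noncomputable section

open WeierstrassCurve CongruenceSubgroup

namespace FA.CM.Quartic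

local notation "ℤ[i]" => GaussianInt

/-- The series as a cusp form with all its properties. -/
theorem exists_eigenform_of_j_eq_1728 (E : WeierstrassCurve ℚ) [E.IsElliptic] (hj : E.j = 1728) :
    ∃ (W : WeierstrassCurve ℤ) (N : ℕ) (f : CuspForm (Gamma0 N) 2),
      W.IsIntegralModelOf E ∧ 0 < N ∧ W.IsModularModelOfLevel N ∧ f.IsNormalizedEigenform ∧
        ∀ n : ℕ, ModularFormClass.qCoeff f n = (E.LFunction n : ℂ) := by
  obtain ⟨D, x, hD, hfree, hx, h4, h6⟩ := exists_invariants_of_j_eq_1728 E hj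
  have hD4 : (4 * D ^ 3 : ℤ) ≠ 0 := mul_ne_zero (by norm_num) (pow_ne_zero 3 hD)
  obtain ⟨φ, hφ⟩ := exists_isWeight hD4
  set M : ℕ := (16 * (4 * D ^ 3)).natAbs with hMdef
  have : NeZero M := ⟨Int.natAbs_ne_zero.mpr (mul_ne_zero (by norm_num) hD4)⟩
  have hMdvd : 16 * (4 * D ^ 3) ∣ (M : ℤ) := Int.dvd_natAbs.mpr dvd_rfl
  obtain ⟨k, hk⟩ := hMdvd
  obtain ⟨f, hf⟩ := exists_latForm_of_periodic (D := 1) (e := 1) (M := M) (M' := M) (one_mul M).symm
    (latticeWeight φ) (fun a b s t => by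
      rw [hk, mul_assoc (16 * (4 * D ^ 3)) k s, mul_assoc (16 * (4 * D ^ 3)) k t,
        latticeWeight_periodic hφ])
    (fun v _ => by simp) fun d hd a b => by
      have hc : IsCoprime (d : ℤ) (16 * (4 * D ^ 3)) :=
        (Nat.isCoprime_iff_coprime.mpr (hd.coprime_dvd_right (dvd_mul_left M (2 * 1)))).of_isCoprime_of_dvd_right
          (Dvd.intro k hk.symm)
      have hodd : Odd d := Nat.coprime_two_right.mp
        (hd.coprime_dvd_right ((dvd_mul_right 2 1).trans (dvd_mul_right _ M)))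
      rw [latticeWeight_intCast_mul hφ hc, Nat.cast_one, jacobiSym.at_neg_one hodd, Int.cast_natCast]
  generalize hN : 4 * 1 * M * M = N at f hf
  have : NeZero N := ⟨by simp [← hN, NeZero.ne M]⟩
  set g : CuspForm (Gamma0 N) 2 := (2⁻¹ : ℂ) • f with hg
  have hcoef : ∀ n : ℕ, ModularFormClass.qCoeff g n = (E.LFunction n : ℂ) := fun n => by
    rw [hg, ← FA.Deform.qLin_apply, map_smul, Pi.smul_apply, FA.Deform.qLin_apply, hf,
      Finset.sum_congr rfl fun v _ => show latticeWeight φ v.1 v.2 * latLam 1 ((v.1 : ℂ), (v.2 : ℂ)) =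
        latticeWeight φ v.1 v.2 * ((v.1 : ℂ) + (v.2 : ℂ) * Complex.I) by
          rw [latLam, Nat.cast_one, Real.sqrt_one, Complex.ofReal_one, mul_one]; ring,
      sum_latticeWeight n (fun v => by rw [mem_latSet]; simp [latQ]),
      ← LFunction_eq_primarySum hD hfree hx h4 h6 hφ, map_intCast, smul_eq_mul]
    ring
  set W : WeierstrassCurve ℤ := ⟨0, 0, 0, D, 0⟩ with hW
  have hWE : W.IsIntegralModelOf E := FA.Twists.isIntegralModelOf_of_invariants (inv_ne_zero hx)
    (by rw [h4]; simp [hW, c₄, b₂, b₄]; field_simp; ring) (by rw [h6]; simp [hW, c₆, b₂, b₄, b₆])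
  have hWΔ : W.Δ = -64 * D ^ 3 := by
    simp only [hW, WeierstrassCurve.Δ, b₂, b₄, b₆, b₈]; ring
  have hND : ∀ p : ℕ, p.Prime → (p ∣ N ↔ (p = 2 ∨ (p : ℤ) ∣ D)) := fun p hp => by
    have hq := Nat.prime_iff_prime_int.mp hp
    rw [← Int.natCast_dvd_natCast, show (N : ℤ) = 2 ^ 2 * (M * M : ℤ) by rw [← hN]; push_cast; ring,
      hq.dvd_mul, hq.dvd_mul, or_self, hMdef, Int.dvd_natAbs,
      show (16 * (4 * D ^ 3) : ℤ) = 2 ^ 6 * D ^ 3 by ring, hq.dvd_mul,
      hq.dvd_pow_iff_dvd two_ne_zero, hq.dvd_pow_iff_dvd (show 6 ≠ 0 by norm_num),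
      hq.dvd_pow_iff_dvd three_ne_zero, ← or_assoc, or_self,
      show (2 : ℤ) = ((2 : ℕ) : ℤ) from rfl, Int.natCast_dvd_natCast,
      Nat.prime_dvd_prime_iff_eq hp Nat.prime_two]
  have hgood : ∀ p : ℕ, p.Prime → ¬ p ∣ N → ¬ (p : ℤ) ∣ W.Δ := fun p hp h h' => by
    have hq := Nat.prime_iff_prime_int.mp hp
    rw [hND p hp, not_or] at h
    rw [hWΔ, neg_mul, dvd_neg, show (64 : ℤ) = 2 ^ 6 by norm_num, hq.dvd_mul,
      hq.dvd_pow_iff_dvd (by norm_num), hq.dvd_pow_iff_dvd three_ne_zero,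
      show (2 : ℤ) = ((2 : ℕ) : ℤ) from rfl, Int.natCast_dvd_natCast,
      Nat.prime_dvd_prime_iff_eq hp Nat.prime_two] at h'
    exact h'.elim h.1 h.2
  have hL := FA.Root.isMultiplicative_LFunction E
  have heig : g.IsNormalizedEigenform := by
    refine ⟨by rw [hcoef, hL.map_one, Int.cast_one], fun a b hab => by
      rw [hcoef, hcoef, hcoef, hL.map_mul_of_coprime hab, Int.cast_mul], fun p r hp h => ?_,
      fun p r hp h => ?_⟩
    · rw [hcoef, hcoef, hcoef, hcoef,
        FA.Root.LFunction_apply_prime_pow_good E W hWE hp (hgood p hp h),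
        FA.Root.LFunction_apply_prime E W hWE hp (hgood p hp h)]
      push_cast
      ring
    · have h0 : ∀ s, E.LFunction (p ^ (s + 1)) = 0 := fun s => by
        rcases eq_or_ne p 2 with rfl | hp2
        · exact FA.CM.LFunction_two_pow_of_c₆ E h6 s
        · exact LFunction_prime_pow_of_dvd hD hfree hx h4 h6 hp hp2
            (((hND p hp).mp h).resolve_left hp2) s
      rw [hcoef, hcoef, hcoef, h0 (r + 1), h0 r, Int.cast_zero, mul_zero]
  refine ⟨W, N, g, hWE, NeZero.pos N,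
    ⟨g, heig, fun p hp hgd hpN => ?_⟩, heig, hcoef⟩
  rw [hcoef, FA.Root.LFunction_apply_prime E W hWE hp hgd]

end FA.CM.Quartic

namespace FA.Summary

open FA.CM.Quartic

/-- **Modularity of every elliptic curve with `j = 1728`**: all coefficients of the L-function are
those of a normalised eigenform of weight two. -/
theorem modularity_of_j_eq_1728 (E : WeierstrassCurve ℚ) [E.IsElliptic] (hj : E.j = 1728) :
    ∃ (N : ℕ) (f : CuspForm (Gamma0 N) 2), 0 < N ∧ f.IsNormalizedEigenform ∧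
      ∀ n : ℕ, (UpperHalfPlane.qExpansion 1 f).coeff n = (E.LFunction n : ℂ) := by
  obtain ⟨-, N, f, -, hN, -, he, hf⟩ := exists_eigenform_of_j_eq_1728 E hj
  exact ⟨N, f, hN, he, hf⟩

/-- Every elliptic curve with `j = 1728` is modular. -/
theorem isModular_of_j_eq_1728 (E : WeierstrassCurve ℚ) [E.IsElliptic] (hj : E.j = 1728) :
    E.IsModular := by
  obtain ⟨W, N, -, hW, hN, hm, -, -⟩ := exists_eigenform_of_j_eq_1728 E hj
  exact ⟨W, hW, N, hN, hm⟩

/-- Its L-series is entire. -/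
theorem entire_continuation_of_j_eq_1728 (E : WeierstrassCurve ℚ) [E.IsElliptic]
    (hj : E.j = 1728) :
    ∃ g : ℂ → ℂ, Differentiable ℂ g ∧ ∀ s : ℂ, 3 / 2 < s.re → E.LSeries s = g s := by
  obtain ⟨-, N, f, -, hN, -, -, hf⟩ := exists_eigenform_of_j_eq_1728 E hj
  exact FA.CM.exists_entire_of_qCoeff E hN f hf

/-- The curves `y² = x³ + D x`, all `D ≠ 0`, are modular. -/
theorem isModular_quartic_twist (D : ℚ) (hD : D ≠ 0) :
    (⟨0, 0, 0, D, 0⟩ : WeierstrassCurve ℚ).IsModular := by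
  have hΔ : (⟨0, 0, 0, D, 0⟩ : WeierstrassCurve ℚ).Δ = -64 * D ^ 3 := by
    simp only [WeierstrassCurve.Δ, b₂, b₄, b₆, b₈]; ring
  have : (⟨0, 0, 0, D, 0⟩ : WeierstrassCurve ℚ).IsElliptic :=
    ⟨isUnit_iff_ne_zero.mpr (by rw [hΔ]; exact mul_ne_zero (by norm_num) (pow_ne_zero 3 hD))⟩
  refine isModular_of_j_eq_1728 _ ?_
  rw [WeierstrassCurve.j, Units.val_inv_eq_inv_val, coe_Δ', hΔ]
  simp only [c₄, b₂, b₄]
  field_simp
  ring

end FA.Summary

end
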