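import Fermat.Agent.CM.Quartic.Sum
import Mathlib.NumberTheory.GaussSum
import Mathlib.RingTheory.RootsOfUnity.AlgebraicallyClosed
import Mathlib.FieldTheory.IsAlgClosed.AlgebraicClosure
import Mathlib.NumberTheory.LegendreSymbol.JacobiSymbol

/-!
# Quartic reciprocity, in the form of periodicity

For every integer `D ≠ 0` there is a function on `ℤ[i]`, periodic modulo `16 D`, multiplicative on
primary elements, whose value at a primary prime `π` is the quartic symbol of `D` modulo `π`. At an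
odd prime `q` the two Gauss sums identities `g⁴ = π² p` and `g^q = χ (q)⁻¹ g (χ^q)` give the value;
at `2` it is the formula of Gauss.
-/

set_option autoImplicit false

noncomputable section

namespace FA.CM.Quartic

local notation "ℤ[i]" => GaussianInt

/-- `α ≡ 1` modulo `(1 + i)³`. -/
def IsPrimary (α : ℤ[i]) : Prop := α.im % 2 = 0 ∧ (α.re + α.im) % 4 = 1

theorem IsPrimary.exists_eq {α : ℤ[i]} (h : IsPrimary α) :
    ∃ s t : ℤ, α.im = 2 * s ∧ α.re = 4 * t + 1 - 2 * s :=
  ⟨α.im / 2, (α.re + α.im) / 4, by have := h.1; omega, by have := h.1; have := h.2; omega⟩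

theorem IsPrimary.mul {α β : ℤ[i]} (hα : IsPrimary α) (hβ : IsPrimary β) : IsPrimary (α * β) := by
  obtain ⟨s, t, e1, e2⟩ := hα.exists_eq
  obtain ⟨s', t', e3, e4⟩ := hβ.exists_eq
  simp only [IsPrimary, Zsqrtd.re_mul, Zsqrtd.im_mul, e1, e2, e3, e4]
  constructor <;> ring_nf <;> omega

theorem IsPrimary.norm_mod_four {α : ℤ[i]} (h : IsPrimary α) : α.norm % 4 = 1 := by
  obtain ⟨s, t, e1, e2⟩ := h.exists_eq
  rw [Zsqrtd.norm_def, e1, e2]
  ring_nf
  omega

theorem isPrimary_intCast {a : ℤ} (ha : a % 4 = 1) : IsPrimary (a : ℤ[i]) := by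
  simp [IsPrimary, ha]

theorem IsPrimary.ne_zero {α : ℤ[i]} (h : IsPrimary α) : α ≠ 0 := fun e => by
  simp [IsPrimary, e] at h

theorem isPrimary_primaryPrime {p : ℕ} [Fact p.Prime] {j : ZMod p} (hj : j * j = -1)
    (hp2 : p ≠ 2) : IsPrimary (primaryPrime hj hp2) :=
  primaryPrime_primary hj hp2

/-- The properties of `α ↦ (D / α)₄`. -/
structure IsWeight (D : ℤ) (φ : ℤ[i] → ℤ[i]) : Prop where
  periodic : ∀ α γ : ℤ[i], φ (α + ((16 * D : ℤ) : ℤ[i]) * γ) = φ α
  map_mul : ∀ α β : ℤ[i], IsPrimary α → IsPrimary β → φ (α * β) = φ α * φ β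
  map_int : ∀ a : ℤ, a % 4 = 1 → IsCoprime a D → φ a = 1
  map_eq_zero : ∀ α : ℤ[i], IsPrimary α → ∀ q : ℕ, q.Prime → q ≠ 2 → (q : ℤ) ∣ D →
    (q : ℤ) ∣ α.norm → φ α = 0
  map_primaryPrime : ∀ (p : ℕ) [Fact p.Prime] (j : ZMod p) (hj : j * j = -1) (hp2 : p ≠ 2),
    (D : ZMod p) ≠ 0 → φ (primaryPrime hj hp2) = quarticChar hj hp2 (D : ZMod p)

theorem IsWeight.mul {D D' : ℤ} {φ φ' : ℤ[i] → ℤ[i]} (h : IsWeight D φ) (h' : IsWeight D' φ') :
    IsWeight (D * D') fun α => φ α * φ' α where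
  periodic α γ := by
    congr 1
    · rw [show ((16 * (D * D') : ℤ) : ℤ[i]) * γ = ((16 * D : ℤ) : ℤ[i]) * ((D' : ℤ[i]) * γ) by
        push_cast; ring, h.periodic]
    · rw [show ((16 * (D * D') : ℤ) : ℤ[i]) * γ = ((16 * D' : ℤ) : ℤ[i]) * ((D : ℤ[i]) * γ) by
        push_cast; ring, h'.periodic]
  map_mul α β hα hβ := by rw [h.map_mul α β hα hβ, h'.map_mul α β hα hβ]; ring
  map_int a ha hc := by
    rw [h.map_int a ha hc.of_mul_right_left, h'.map_int a ha hc.of_mul_right_right, one_mul]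
  map_eq_zero α hα q hq hq2 hd hn := by
    rcases Int.Prime.dvd_mul' hq hd with hd | hd
    · rw [h.map_eq_zero α hα q hq hq2 hd hn, zero_mul]
    · rw [h'.map_eq_zero α hα q hq hq2 hd hn, mul_zero]
  map_primaryPrime p _ j hj hp2 hd := by
    rw [Int.cast_mul] at hd ⊢
    rw [h.map_primaryPrime p j hj hp2 (left_ne_zero_of_mul hd),
      h'.map_primaryPrime p j hj hp2 (right_ne_zero_of_mul hd), _root_.map_mul]

theorem isWeight_one : IsWeight 1 fun _ => 1 where
  periodic _ _ := rfl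
  map_mul _ _ _ _ := (one_mul 1).symm
  map_int _ _ _ := rfl
  map_eq_zero _ _ q hq _ hd _ := absurd (Int.natCast_dvd_natCast.mp hd) hq.not_dvd_one
  map_primaryPrime p _ j hj hp2 _ := by rw [Int.cast_one, map_one]

/-! ### The units -/

/-- `(N - 1) / 4` modulo `4`. -/
def quarterNorm (α : ℤ[i]) : ℕ := ((α.norm - 1) / 4 % 4).toNat

theorem quarterNorm_periodic (α γ : ℤ[i]) (D : ℤ) :
    quarterNorm (α + ((16 * D : ℤ) : ℤ[i]) * γ) = quarterNorm α := by
  have h : (α + ((16 * D : ℤ) : ℤ[i]) * γ).norm = α.norm + 16 * (2 * (α.re * (D * γ.re) +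
      α.im * (D * γ.im)) + 16 * ((D * γ.re) ^ 2 + (D * γ.im) ^ 2)) := by
    simp [Zsqrtd.norm_def]; ring
  unfold quarterNorm
  rw [h]
  omega

theorem pow_quarterNorm_mul {z : ℤ[i]} (hz : z ^ 4 = 1) {α β : ℤ[i]} (hα : IsPrimary α)
    (hβ : IsPrimary β) :
    z ^ quarterNorm (α * β) = z ^ quarterNorm α * z ^ quarterNorm β := by
  obtain ⟨u, hu⟩ : ∃ u, α.norm = 4 * u + 1 := ⟨α.norm / 4, by have := hα.norm_mod_four; omega⟩
  obtain ⟨v, hv⟩ : ∃ v, β.norm = 4 * v + 1 := ⟨β.norm / 4, by have := hβ.norm_mod_four; omega⟩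
  rw [← pow_add, pow_eq_pow_mod _ hz, pow_eq_pow_mod (quarterNorm α + quarterNorm β) hz]
  congr 1
  unfold quarterNorm
  rw [Zsqrtd.norm_mul, hu, hv,
    show ((4 * u + 1) * (4 * v + 1) - 1 : ℤ) = 4 * (4 * (u * v) + u + v) by ring]
  omega

theorem quarterNorm_primaryPrime {p : ℕ} [Fact p.Prime] {j : ZMod p} (hj : j * j = -1)
    (hp2 : p ≠ 2) : quarterNorm (primaryPrime hj hp2) = (p - 1) / 4 % 4 := by
  have := mod_four_eq_one hj hp2
  unfold quarterNorm
  rw [norm_primaryPrime]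
  omega

theorem isWeight_neg_one : IsWeight (-1) fun α => (-1) ^ quarterNorm α where
  periodic α γ := congrArg _ (quarterNorm_periodic α γ (-1))
  map_mul α β hα hβ := pow_quarterNorm_mul (by norm_num) hα hβ
  map_int a ha _ := by
    obtain ⟨k, rfl⟩ : ∃ k, a = 4 * k + 1 := ⟨a / 4, by omega⟩
    refine Even.neg_one_pow ?_
    unfold quarterNorm
    rw [Zsqrtd.norm_intCast, show ((4 * k + 1) * (4 * k + 1) - 1 : ℤ) = 4 * (4 * (k * k) + 2 * k) by
      ring]
    rw [Nat.even_iff]
    omega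
  map_eq_zero _ _ q hq _ hd _ :=
    absurd (Int.natCast_dvd_natCast.mp (dvd_neg.mp hd)) hq.not_dvd_one
  map_primaryPrime p _ j hj hp2 _ := by
    rw [← unitLift_evalI hj (two_ne_zero' hp2) (isQU_quarticChar hj hp2 _), evalI_quarticChar,
      ← unitLift_evalI hj (two_ne_zero' hp2) (u := (-1) ^ quarterNorm (primaryPrime hj hp2))
        (by rcases neg_one_pow_eq_or ℤ[i] (quarterNorm (primaryPrime hj hp2)) with e | e <;>
          rw [e] <;> unfold IsQU <;> decide)]
    rw [map_pow, map_neg, map_one, quarterNorm_primaryPrime, Int.cast_neg, Int.cast_one,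
      ← pow_eq_pow_mod _ (by norm_num : (-1 : ZMod p) ^ 4 = 1)]

/-- Gauss's formula for `(2 / α)₄`. -/
def weightTwo (α : ℤ[i]) : ℤ[i] :=
  (ZMod.χ₈ ((α.re + α.im : ℤ) : ZMod 8) : ℤ[i]) * ⟨0, -1⟩ ^ quarterNorm α

theorem negI_pow_four : (⟨0, -1⟩ : ℤ[i]) ^ 4 = 1 := by decide

/-- **The quartic character of `2`.** -/
theorem quarticChar_two {p : ℕ} [hp : Fact p.Prime] {j : ZMod p} (hj : j * j = -1) (hp2 : p ≠ 2) :
    weightTwo (primaryPrime hj hp2) = quarticChar hj hp2 2 := by
  set π := primaryPrime hj hp2 with hπ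
  set a := π.re with ha
  set b := π.im with hb
  set m := (p - 1) / 4 with hm
  have h1 := mod_four_eq_one hj hp2
  have h2 := two_ne_zero' hp2
  have hodd : Odd a.natAbs ∧ Odd (a + b).natAbs := by
    obtain ⟨s, t, e1, e2⟩ := (isPrimary_primaryPrime hj hp2).exists_eq
    rw [← hπ] at e1 e2
    rw [Nat.odd_iff, Nat.odd_iff]
    omega
  have hn : (p : ℤ) = a ^ 2 + b ^ 2 := by
    rw [← norm_primaryPrime hj hp2, Zsqrtd.norm_def, ha, hb, hπ]; ring
  have hev : (a : ZMod p) + (b : ZMod p) * j = 0 := by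
    rw [← evalI_primaryPrime hj hp2]; rfl
  have hgcd : ∀ (x y : ℤ) (n : ℕ), Odd n → x ^ 2 + y ^ 2 = p ∨ x ^ 2 + y ^ 2 = 2 * p →
      (n : ℤ) ∣ x → (n : ℤ) ∣ y → n = 1 := by
    intro x y n hno he hx hy
    have hd : (n : ℤ) ^ 2 ∣ 2 * p := by
      have := dvd_add (pow_dvd_pow_of_dvd hx 2) (pow_dvd_pow_of_dvd hy 2)
      rcases he with he | he <;> rw [he] at this
      exacts [this.mul_left 2, this]
    have hd' : n ^ 2 ∣ 2 * p := by exact_mod_cast hd
    have hcop : Nat.Coprime (n ^ 2) 2 := Nat.Coprime.pow_left 2 (Nat.coprime_two_right.mpr hno)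
    have h := hcop.dvd_of_dvd_mul_left hd'
    rcases (Nat.dvd_prime hp.out).mp ((dvd_pow_self n two_ne_zero).trans h) with e | e
    · exact e
    · exfalso
      rw [e, pow_two] at h
      have := Nat.le_of_dvd hp.out.pos h
      nlinarith [hp.out.two_le]
  -- the two Legendre symbols
  have hJp : ∀ x : ℤ, Odd x.natAbs → jacobiSym x p = jacobiSym p x.natAbs := fun x hx => by
    rw [← jacobiSym.quadratic_reciprocity_one_mod_four' hx h1]
    rcases Int.natAbs_eq x with e | e
    · rw [← e]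
    · conv_lhs => rw [e, jacobiSym.neg _ (Nat.odd_iff.mpr (by omega)),
        ZMod.χ₄_nat_one_mod_four h1, one_mul]
  have hL1 : jacobiSym a p = 1 := by
    rw [hJp a hodd.1, jacobiSym.mod_left' (a₂ := b ^ 2), jacobiSym.sq_one']
    · refine hgcd a b _ ?_ (Or.inl hn.symm) ((Int.gcd_dvd_right _ _).trans ?_) (Int.gcd_dvd_left _ _)
      · exact hodd.1.of_dvd_nat (Nat.gcd_dvd_right _ _)
      · exact Int.natAbs_dvd.mpr dvd_rfl
    · refine Int.emod_eq_emod_iff_emod_sub_eq_zero.mpr (Int.emod_eq_zero_of_dvd ?_)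
      rw [Int.natAbs_dvd, hn, show a ^ 2 + b ^ 2 - b ^ 2 = a * a by ring]
      exact dvd_mul_right _ _
  have hL2 : jacobiSym (a + b) p = ZMod.χ₈ ((a + b : ℤ) : ZMod 8) := by
    have e : jacobiSym (2 * p) (a + b).natAbs = 1 := by
      rw [jacobiSym.mod_left' (a₂ := (a - b) ^ 2), jacobiSym.sq_one']
      · refine hgcd (a + b) (a - b) _ ?_ (Or.inr (by rw [hn]; ring))
          ((Int.gcd_dvd_right _ _).trans (Int.natAbs_dvd.mpr dvd_rfl)) (Int.gcd_dvd_left _ _)
        exact hodd.2.of_dvd_nat (Nat.gcd_dvd_right _ _)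
      · refine Int.emod_eq_emod_iff_emod_sub_eq_zero.mpr (Int.emod_eq_zero_of_dvd ?_)
        rw [Int.natAbs_dvd, hn, show 2 * (a ^ 2 + b ^ 2) - (a - b) ^ 2 = (a + b) * (a + b) by ring]
        exact dvd_mul_right _ _
    have h8 : ZMod.χ₈ ((a + b).natAbs : ZMod 8) = ZMod.χ₈ ((a + b : ℤ) : ZMod 8) := by
      rcases Int.natAbs_eq (a + b) with e | e <;> conv_rhs => rw [e]
      · rw [Int.cast_natCast]
      · rw [Int.cast_neg, Int.cast_natCast]
        generalize ((a + b).natAbs : ZMod 8) = z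
        revert z; decide
    rw [jacobiSym.mul_left, jacobiSym.at_two hodd.2, h8] at e
    rw [hJp _ hodd.2]
    rcases Int.isUnit_iff.mp (IsUnit.of_mul_eq_one _ e) with h | h <;> rw [h] at e ⊢ <;> linarith
  -- in `𝔽_p`
  have hpow : ∀ x : ℤ, (jacobiSym x p : ZMod p) = (x : ZMod p) ^ (2 * m) := fun x => by
    rw [← jacobiSym.legendreSym.to_jacobiSym, legendreSym.eq_pow]
    congr 1
    omega
  have key : ((a : ZMod p) + b) ^ (2 * m) = 2 ^ m * (a : ZMod p) ^ (2 * m) * j ^ m := by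
    rw [pow_mul, pow_mul (a : ZMod p), ← mul_pow, ← mul_pow]
    congr 1
    linear_combination (2 * (a : ZMod p) + a * j + b) * (-j) * hev +
      ((2 * (a : ZMod p) + a * j + b) * b + (a : ZMod p) ^ 2) * hj
  rw [← Int.cast_add, ← hpow, ← hpow, hL1, hL2, Int.cast_one, mul_one] at key
  have hval : IsQU (weightTwo π) := by
    refine IsQU.mul ?_ ?_
    · generalize ((π.re + π.im : ℤ) : ZMod 8) = z
      revert z; unfold IsQU; decide
    · rw [pow_eq_pow_mod _ negI_pow_four]
      have := Nat.mod_lt (quarterNorm π) (show 0 < 4 by norm_num)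
      interval_cases quarterNorm π % 4 <;> unfold IsQU <;> decide
  rw [← unitLift_evalI hj h2 hval, ← unitLift_evalI hj h2 (isQU_quarticChar hj hp2 2),
    evalI_quarticChar, weightTwo, ← ha, ← hb]
  congr 1
  rw [map_mul, map_intCast, map_pow, key, hπ, quarterNorm_primaryPrime hj hp2,
    ← pow_eq_pow_mod _ (show evalI hj (⟨0, -1⟩ : ℤ[i]) ^ 4 = 1 by
      rw [← map_pow, negI_pow_four, map_one]), ← hm, mul_assoc, ← mul_pow]
  rw [show j * evalI hj (⟨0, -1⟩ : ℤ[i]) = 1 by
    rw [evalI_apply]; push_cast; linear_combination -hj, one_pow, mul_one]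

theorem isWeight_two : IsWeight 2 weightTwo where
  periodic α γ := by
    unfold weightTwo
    rw [quarterNorm_periodic]
    rw [show (((α + ((16 * 2 : ℤ) : ℤ[i]) * γ).re + (α + ((16 * 2 : ℤ) : ℤ[i]) * γ).im : ℤ) :
        ZMod 8) = ((α.re + α.im : ℤ) : ZMod 8) by
      rw [ZMod.intCast_eq_intCast_iff']
      simp
      omega]
  map_mul α β hα hβ := by
    obtain ⟨s, t, e1, e2⟩ := hα.exists_eq
    obtain ⟨s', t', e3, e4⟩ := hβ.exists_eq
    unfold weightTwo
    rw [pow_quarterNorm_mul negI_pow_four hα hβ]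
    rw [show (((α * β).re + (α * β).im : ℤ) : ZMod 8) =
        ((α.re + α.im : ℤ) : ZMod 8) * ((β.re + β.im : ℤ) : ZMod 8) by
      rw [← Int.cast_mul, ZMod.intCast_eq_intCast_iff', Zsqrtd.re_mul, Zsqrtd.im_mul, e1, e2, e3, e4]
      ring_nf
      omega, _root_.map_mul, Int.cast_mul]
    ring
  map_int a ha _ := by
    obtain ⟨k, rfl⟩ : ∃ k, a = 4 * k + 1 := ⟨a / 4, by omega⟩
    unfold weightTwo quarterNorm
    rw [Zsqrtd.norm_intCast, show ((4 * k + 1) * (4 * k + 1) - 1 : ℤ) = 4 * (4 * (k * k) + 2 * k) by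
      ring, Zsqrtd.re_intCast, Zsqrtd.im_intCast, add_zero, ← ZMod.intCast_mod (4 * k + 1)]
    rcases Int.emod_two_eq_zero_or_one k with h | h
    · rw [show (4 * k + 1) % (8 : ℕ) = 1 by omega,
        show ((4 * (4 * (k * k) + 2 * k)) / 4 % 4).toNat = 0 by omega]
      decide
    · rw [show (4 * k + 1) % (8 : ℕ) = 5 by omega,
        show ((4 * (4 * (k * k) + 2 * k)) / 4 % 4).toNat = 2 by omega]
      decide
  map_eq_zero _ _ q hq hq2 hd _ := absurd ((Nat.prime_dvd_prime_iff_eq hq Nat.prime_two).mp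
    (Int.natCast_dvd_natCast.mp hd)) hq2
  map_primaryPrime p _ j hj hp2 _ := by rw [quarticChar_two, Int.cast_ofNat]

theorem unitLift_zero {F : Type*} [Field F] {j : F} (hj : j * j = -1) : unitLift j 0 = 0 := by
  have hj0 : j ≠ 0 := fun e => by simp [e] at hj
  simp [unitLift, hj0, hj0.symm]

theorem star_eq_of_mul_eq_one {u v : ℤ[i]} (h : v * u = 1) : star u = v := by
  have hn : v.norm * u.norm = 1 := by rw [← Zsqrtd.norm_mul, h, Zsqrtd.norm_one]
  have hu : u.norm = 1 := Int.eq_one_of_mul_eq_one_left (GaussianInt.norm_nonneg u) hn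
  calc star u = v * u * star u := by rw [h, one_mul]
    _ = v * (u.norm : ℤ[i]) := by rw [mul_assoc, ← Zsqrtd.norm_eq_mul_conj]
    _ = v := by rw [hu, Int.cast_one, mul_one]

/-! ### An odd prime -/

section odd

variable {q : ℕ} [hq : Fact q.Prime]

local notation "K" => AlgebraicClosure (ZMod q)

variable (q) in
/-- A square root of `-1` in characteristic `q`. -/
def sqrtNegOne : K := (IsAlgClosed.exists_pow_nat_eq (-1 : K) two_pos).choose

theorem sqrtNegOne_mul_self : sqrtNegOne q * sqrtNegOne q = -1 := by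
  rw [← pow_two]; exact (IsAlgClosed.exists_pow_nat_eq (-1 : K) two_pos).choose_spec

variable (q) in
/-- Reduction of `ℤ[i]` in characteristic `q`. -/
def redI : ℤ[i] →+* K := evalI (sqrtNegOne_mul_self (q := q))

theorem redI_pow_char (hq2 : q ≠ 2) (α : ℤ[i]) :
    redI q α ^ q = redI q (if q % 4 = 1 then α else star α) := by
  have hi : sqrtNegOne q ^ q = if q % 4 = 1 then sqrtNegOne q else -sqrtNegOne q := by
    have h4 : sqrtNegOne q ^ 4 = 1 := by
      rw [show 4 = 2 * 2 from rfl, pow_mul, pow_two (sqrtNegOne q), sqrtNegOne_mul_self]; norm_num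
    rcases (show q % 4 = 1 ∨ q % 4 = 3 by have := hq.out.eq_two_or_odd; omega) with h | h
    · rw [if_pos h, pow_eq_pow_mod _ h4, h, pow_one]
    · rw [if_neg (by omega), pow_eq_pow_mod _ h4, h, pow_succ, pow_two, sqrtNegOne_mul_self,
        neg_one_mul]
  have := CharP.charP_iff_prime_eq_zero (R := K) hq.out |>.mpr (CharP.cast_eq_zero K q)
  show (evalI _ α) ^ q = evalI _ _
  rw [evalI_apply, evalI_apply, add_pow_char, mul_pow, ← frobenius_def (R := K) q (α.re : K),
    ← frobenius_def (R := K) q (α.im : K), map_intCast, map_intCast, hi]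
  split_ifs <;> simp

theorem intCast_pow_char_sub_one {N : ℤ} (h : (N : K) ≠ 0) : (N : K) ^ (q - 1) = 1 := by
  have e : (N : K) ^ q = N := by rw [← frobenius_def, map_intCast]
  refine mul_left_cancel₀ h ?_
  rw [← pow_succ', Nat.sub_add_cancel hq.out.one_le, e, mul_one]

theorem redI_pow_succ_eq_norm (hq3 : q % 4 = 3) (α : ℤ[i]) :
    redI q α ^ (q + 1) = (α.norm : K) := by
  rw [pow_succ, redI_pow_char (by omega), if_neg (by omega), mul_comm, ← map_mul,
    ← Zsqrtd.norm_eq_mul_conj, map_intCast]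

variable (q) in
/-- `α^u N^v` in characteristic `q`, the symbol at `α` of `q` or `-q`. -/
def symb (α : ℤ[i]) : K :=
  if q % 4 = 1 then redI q α ^ ((q - 1) / 2) * (α.norm : K) ^ ((q - 1) / 4)
  else redI q α ^ ((q + 1) / 2) * (α.norm : K) ^ ((q - 3) / 4)

theorem symb_mul (α β : ℤ[i]) : symb q (α * β) = symb q α * symb q β := by
  unfold symb
  split_ifs <;> simp only [map_mul, Zsqrtd.norm_mul, Int.cast_mul] <;> ring

theorem symb_pow_four (hq2 : q ≠ 2) (α : ℤ[i]) : symb q α ^ 4 = 1 ∨ symb q α = 0 := by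
  have hq4 : q % 4 = 1 ∨ q % 4 = 3 := by have := hq.out.eq_two_or_odd; omega
  have h2q := hq.out.two_le
  unfold symb
  rcases hq4 with h | h
  · rw [if_pos h]
    rcases eq_or_ne (redI q α) 0 with e | e
    · exact Or.inr (by rw [e, zero_pow (by omega), zero_mul])
    rcases eq_or_ne (α.norm : K) 0 with e' | e'
    · exact Or.inr (by rw [e', zero_pow (by omega), mul_zero])
    refine Or.inl ?_
    have ea : redI q α ^ (q - 1) = 1 := by
      refine mul_left_cancel₀ e ?_
      rw [← pow_succ', Nat.sub_add_cancel hq.out.one_le, redI_pow_char hq2, if_pos h, mul_one]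
    rw [mul_pow, ← pow_mul, ← pow_mul, show (q - 1) / 2 * 4 = (q - 1) * 2 by omega,
      show (q - 1) / 4 * 4 = q - 1 by omega, pow_mul, ea, intCast_pow_char_sub_one e', one_pow,
      mul_one]
  · rw [if_neg (by omega)]
    rcases eq_or_ne (redI q α) 0 with e | e
    · exact Or.inr (by rw [e, zero_pow (by omega), zero_mul])
    refine Or.inl ?_
    have e' : (α.norm : K) ≠ 0 := by rw [← redI_pow_succ_eq_norm h]; exact pow_ne_zero _ e
    rw [mul_pow, ← pow_mul, ← pow_mul, show (q + 1) / 2 * 4 = (q + 1) * 2 by omega, pow_mul,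
      redI_pow_succ_eq_norm h, ← pow_add, show 2 + (q - 3) / 4 * 4 = q - 1 by omega,
      intCast_pow_char_sub_one e']

variable (q) in
/-- The weight of `± q`, the sign making it `1` modulo `4`. -/
def weightOdd (α : ℤ[i]) : ℤ[i] :=
  if q % 4 = 1 then star (unitLift (sqrtNegOne q) (symb q α))
  else unitLift (sqrtNegOne q) (symb q α)

variable (q) in
/-- `± q`, congruent to `1` modulo `4`. -/
def signedPrime : ℤ := if q % 4 = 1 then (q : ℤ) else -(q : ℤ)

theorem two_ne_zero_K (hq2 : q ≠ 2) : (2 : K) ≠ 0 := by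
  rw [← Nat.cast_ofNat, Ne, CharP.cast_eq_zero_iff K q, Nat.prime_dvd_prime_iff_eq hq.out Nat.prime_two]
  exact hq2

theorem isQU_pow {u : ℤ[i]} (hu : IsQU u) (n : ℕ) : IsQU (u ^ n) := by
  induction n with
  | zero => rw [pow_zero]; exact Or.inr (Or.inl rfl)
  | succ n ih => rw [pow_succ]; exact ih.mul hu

theorem gaussSum_quartic {p : ℕ} [hp : Fact p.Prime] {j : ZMod p} (hj : j * j = -1) (hp2 : p ≠ 2)
    (hq2 : q ≠ 2) (hpq : p ≠ q) :
    redI q (quarticChar hj hp2 (q : ZMod p)) * symb q (primaryPrime hj hp2) = 1 ∧ q % 4 = 1 ∨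
      redI q (quarticChar hj hp2 (-(q : ZMod p))) = symb q (primaryPrime hj hp2) ∧ q % 4 = 3 := by
  set χ := quarticChar hj hp2 with hχdef
  set χK : MulChar (ZMod p) K := χ.ringHomComp (redI q) with hχK
  have h2K := two_ne_zero_K hq2
  have happ : ∀ x, χK x = redI q (χ x) := fun x => MulChar.ringHomComp_apply _ _ x
  have hinj : ∀ {u v : ℤ[i]}, IsQU u → IsQU v → redI q u = redI q v → u = v := fun hu hv e => by
    rw [← unitLift_evalI sqrtNegOne_mul_self h2K hu, ← unitLift_evalI sqrtNegOne_mul_self h2K hv]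
    exact congrArg _ e
  have hne : ∀ {n : ℕ}, χ ^ n ≠ 1 → χK ^ n ≠ 1 := fun {n} hn e => hn (MulChar.ext fun a => by
    have := DFunLike.congr_fun e (a : ZMod p)
    rw [MulChar.pow_apply_coe, happ, ← map_pow, MulChar.one_apply_coe, ← map_one (redI q)] at this
    rw [MulChar.pow_apply_coe, MulChar.one_apply_coe]
    exact hinj (isQU_pow (isQU_quarticChar hj hp2 _) _) (Or.inr (Or.inl rfl)) this)
  have hne1 : χK ≠ 1 := by
    simpa using hne (n := 1) (by rw [pow_one]; exact quarticChar_ne_one hj hp2)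
  have hne2 : χK * χK ≠ 1 := by rw [← pow_two]; exact hne (quarticChar_sq_ne_one hj hp2)
  have hsq : ∀ x, (χK * χK) x = ((quadraticChar (ZMod p) x : ℤ) : K) := fun x => by
    rw [MulChar.mul_apply, happ, ← map_mul, ← pow_two, hχdef, quarticChar_sq, map_intCast]
  have hpK : (p : K) ≠ 0 := by
    rw [Ne, CharP.cast_eq_zero_iff K q, Nat.prime_dvd_prime_iff_eq hq.out hp.out]
    exact hpq.symm
  have : NeZero (p : K) := ⟨hpK⟩
  obtain ⟨ζ, hζ⟩ := HasEnoughRootsOfUnity.exists_primitiveRoot K p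
  set ψ := AddChar.zmodChar p hζ.pow_eq_one
  have hψ : ψ.IsPrimitive := AddChar.zmodChar_primitive_of_primitive_root p hζ
  set g := gaussSum χK ψ with hg
  have hcard : (Fintype.card (ZMod p) : K) = p := by rw [ZMod.card]
  have hg0 : g ≠ 0 := gaussSum_ne_zero_of_nontrivial (hcard ▸ hpK) hne1 hψ
  have hneg : χK (-1) * χK (-1) = 1 := by rw [← map_mul, neg_one_mul, neg_neg, map_one]
  have hg4 : g ^ 4 = redI q (primaryPrime hj hp2) ^ 2 * p := by
    have hquad : (χK * χK).IsQuadratic := fun x => by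
      rw [hsq]
      rcases eq_or_ne x 0 with rfl | hx
      · simp
      · rcases quadraticChar_dichotomy hx with e | e <;> simp [e]
    have h := jacobiSum_mul_nontrivial hne2 ψ
    rw [show 4 = 2 * 2 from rfl, pow_mul, pow_two g, ← h, mul_pow, gaussSum_sq hne2 hquad hψ,
      MulChar.mul_apply, hneg, one_mul, hcard, jacobiSum_ringHomComp, primaryPrime, map_mul,
      map_neg, ← happ, mul_pow, neg_sq, pow_two (χK (-1)), hneg, one_mul, mul_comm]
  have hchi4 : ∀ x : (ZMod p)ˣ, χK (x : ZMod p) ^ 4 = 1 := fun x => by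
    rw [show 4 = 2 * 2 from rfl, pow_mul, pow_two (χK (x : ZMod p)), ← MulChar.mul_apply, hsq,
      ← Int.cast_pow, quadraticChar_sq_one (Units.ne_zero x), Int.cast_one]
  have hqp : IsUnit (q : ZMod p) := by
    rw [isUnit_iff_ne_zero, Ne, CharP.cast_eq_zero_iff (ZMod p) p,
      Nat.prime_dvd_prime_iff_eq hp.out hq.out]
    exact hpq
  have hfrob : (χK ^ q) (q : ZMod p) * g ^ q = gaussSum (χK ^ q) ψ := by
    have := gaussSum_mulShift (χK ^ q) ψ hqp.unit
    rwa [hqp.unit_spec, ← AddChar.pow_mulShift, ← gaussSum_frob q χK ψ] at this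
  have hpow : ∀ r, q % 4 = r → χK ^ q = χK ^ r := fun r hr => MulChar.ext fun a => by
    rw [MulChar.pow_apply_coe, MulChar.pow_apply_coe, pow_eq_pow_mod _ (hchi4 a), hr]
  have h2q := hq.out.two_le
  rcases (show q % 4 = 1 ∨ q % 4 = 3 by have := hq.out.eq_two_or_odd; omega) with h | h
  · refine Or.inl ⟨mul_right_cancel₀ hg0 ?_, h⟩
    rw [hpow 1 h, pow_one, ← hg] at hfrob
    rw [symb, if_pos h, norm_primaryPrime, Int.cast_natCast, show (q - 1) / 2 = 2 * ((q - 1) / 4) by omega,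
      pow_mul, ← mul_pow, ← hg4, ← pow_mul, ← happ, mul_assoc, ← pow_succ,
      show 4 * ((q - 1) / 4) + 1 = q by omega, hfrob, one_mul]
  · refine Or.inr ⟨mul_right_cancel₀ hpK ?_, h⟩
    rw [hpow 3 h] at hfrob
    have hinv : χK ^ 3 = χK⁻¹ := eq_inv_of_mul_eq_one_left (MulChar.ext fun a => by
      rw [MulChar.mul_apply, MulChar.pow_apply_coe, ← pow_succ, hchi4, MulChar.one_apply_coe])
    have hprod : g * gaussSum (χK ^ 3) ψ = χK (-1) * p := by
      rw [hinv, ← mul_gaussSum_inv_eq_gaussSum χK⁻¹ ψ, mul_left_comm,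
        gaussSum_mul_gaussSum_eq_card hne1 hψ, hcard, MulChar.inv_apply', inv_neg_one]
    rw [symb, if_neg (by omega), norm_primaryPrime, Int.cast_natCast, mul_assoc, ← pow_succ,
      show (q - 3) / 4 + 1 = (q + 1) / 4 by omega, show (q + 1) / 2 = 2 * ((q + 1) / 4) by omega,
      pow_mul, ← mul_pow, ← hg4, ← pow_mul, show 4 * ((q + 1) / 4) = q + 1 by omega, ← happ,
      show -(q : ZMod p) = -1 * q by ring, map_mul, mul_right_comm, ← hprod, ← hfrob, pow_succ g q,
      MulChar.pow_apply' _ three_ne_zero]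
    have h4 := hchi4 hqp.unit
    rw [hqp.unit_spec] at h4
    linear_combination (g ^ q * g) * h4

theorem isWeight_signedPrime (hq2 : q ≠ 2) : IsWeight (signedPrime q) (weightOdd q) where
  periodic α γ := by
    have h0 : ((16 * signedPrime q : ℤ) : K) = 0 := by
      unfold signedPrime
      split_ifs <;> simp
    have e1 : redI q (α + ((16 * signedPrime q : ℤ) : ℤ[i]) * γ) = redI q α := by
      rw [map_add, map_mul, map_intCast, h0, zero_mul, add_zero]
    have e2 : ((α + ((16 * signedPrime q : ℤ) : ℤ[i]) * γ).norm : K) = (α.norm : K) := by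
      generalize (16 * signedPrime q : ℤ) = c at h0 ⊢
      simp [Zsqrtd.norm_def, h0]
    unfold weightOdd symb
    rw [e1, e2]
  map_mul α β _ _ := by
    unfold weightOdd
    rw [symb_mul, unitLift_mul sqrtNegOne_mul_self (two_ne_zero_K hq2) (symb_pow_four hq2 α)
      (symb_pow_four hq2 β)]
    split_ifs
    · rw [star_mul']
    · rfl
  map_int a _ hc := by
    have ha : (a : K) ≠ 0 := by
      intro e
      rw [CharP.intCast_eq_zero_iff K q] at e
      have hd : (q : ℤ) ∣ signedPrime q := by unfold signedPrime; split_ifs <;> simp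
      exact hq.out.not_dvd_one (Int.natCast_dvd_natCast.mp
        (by simpa using hc.isUnit_of_dvd' e hd |>.dvd (a := (1 : ℤ))))
    have h1 : symb q (a : ℤ[i]) = 1 := by
      have := hq.out.two_le
      have := hq.out.eq_two_or_odd
      rw [symb, map_intCast, Zsqrtd.norm_intCast, Int.cast_mul, ← pow_two]
      split_ifs <;> rw [← pow_mul, ← pow_add] <;>
        [rw [show (q - 1) / 2 + 2 * ((q - 1) / 4) = q - 1 by omega];
         rw [show (q + 1) / 2 + 2 * ((q - 3) / 4) = q - 1 by omega]] <;>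
        exact intCast_pow_char_sub_one ha
    unfold weightOdd unitLift
    rw [h1]
    simp
  map_eq_zero α _ l hl hl2 hd hn := by
    have hlq : l = q := by
      refine (Nat.prime_dvd_prime_iff_eq hl hq.out).mp (Int.natCast_dvd_natCast.mp ?_)
      unfold signedPrime at hd
      split_ifs at hd
      exacts [hd, dvd_neg.mp hd]
    rw [hlq] at hn
    have h0 : (α.norm : K) = 0 := (CharP.intCast_eq_zero_iff K q _).mpr hn
    have h1 : symb q α = 0 := by
      have := hq.out.two_le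
      have := hq.out.eq_two_or_odd
      unfold symb
      split_ifs with h
      · rw [h0, zero_pow (by omega), mul_zero]
      · have := redI_pow_succ_eq_norm (q := q) (by omega) α
        rw [h0] at this
        rw [eq_zero_of_pow_eq_zero this, zero_pow (by omega), zero_mul]
    unfold weightOdd
    rw [h1, unitLift_zero sqrtNegOne_mul_self]
    split_ifs <;> simp
  map_primaryPrime p _ j hj hp2 hd := by
    have hpq : p ≠ q := fun e => hd (by subst e; unfold signedPrime; split_ifs <;> simp)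
    have h2K := two_ne_zero_K hq2
    rcases gaussSum_quartic hj hp2 hq2 hpq with ⟨e, h⟩ | ⟨e, h⟩
    · simp only [weightOdd, signedPrime, if_pos h, Int.cast_natCast]
      refine star_eq_of_mul_eq_one ?_
      have hQ := isQU_quarticChar hj hp2 (q : ZMod p)
      have hs := isQU_unitLift (sqrtNegOne q) (symb q (primaryPrime hj hp2))
      rw [← unitLift_evalI sqrtNegOne_mul_self h2K (hQ.mul hs), map_mul,
        evalI_unitLift sqrtNegOne_mul_self (symb_pow_four hq2 _)]
      show unitLift _ (redI q _ * _) = _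
      rw [e]; simp [unitLift]
    · simp only [weightOdd, signedPrime, if_neg (by omega : ¬ q % 4 = 1), Int.cast_neg,
        Int.cast_natCast]
      rw [← unitLift_evalI sqrtNegOne_mul_self h2K (isQU_quarticChar hj hp2 (-(q : ZMod p))), ← e]
      rfl

end odd

/-- **There is a weight for every `D ≠ 0`.** -/
theorem exists_isWeight {D : ℤ} (hD : D ≠ 0) : ∃ φ, IsWeight D φ := by
  suffices h : ∀ n : ℕ, n ≠ 0 → ∃ φ, IsWeight n φ by
    rcases Int.natAbs_eq D with e | e <;> rw [e]
    · exact h _ (Int.natAbs_ne_zero.mpr hD)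
    · obtain ⟨φ, hφ⟩ := h _ (Int.natAbs_ne_zero.mpr hD)
      rw [← neg_one_mul]
      exact ⟨_, isWeight_neg_one.mul hφ⟩
  intro n
  induction n using induction_on_primes with
  | zero => exact fun h => absurd rfl h
  | one => exact fun _ => ⟨_, isWeight_one⟩
  | prime_mul l n hl ih =>
    intro h
    obtain ⟨φ, hφ⟩ := ih (right_ne_zero_of_mul h)
    have := Fact.mk hl
    rw [Nat.cast_mul]
    rcases eq_or_ne l 2 with rfl | hl2
    · exact ⟨_, isWeight_two.mul hφ⟩
    rcases eq_or_ne (l % 4) 1 with h4 | h4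
    · have := (isWeight_signedPrime (q := l) hl2).mul hφ
      rw [signedPrime, if_pos h4] at this
      exact ⟨_, this⟩
    · have := (isWeight_neg_one.mul (isWeight_signedPrime (q := l) hl2)).mul hφ
      rw [signedPrime, if_neg h4, show -1 * -(l : ℤ) * n = l * n by ring] at this
      exact ⟨_, this⟩

end FA.CM.Quartic

end
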