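import Fermat.Agent.CM.Count
import Fermat.Agent.Twists.LocalFactors
import Mathlib.NumberTheory.JacobiSum.Basic
import Mathlib.NumberTheory.Zsqrtd.QuadraticReciprocity
import Mathlib.NumberTheory.LegendreSymbol.QuadraticChar.GaussSum

/-!
# The Frobenius traces of `y² = x³ + D x`

For a prime `p` and `j ∈ 𝔽_p` with `j² = -1` let `χ` be the lift to `ℤ[i]` of `x ↦ x^((p-1)/4)` and
`π = -χ (-1) J (χ, χ)`. Then `π` is primary of norm `p`, goes to `0` under `i ↦ j`, and the trace at
`p` is `χ (4 D³) π` plus its conjugate.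
-/

set_option autoImplicit false

noncomputable section

open WeierstrassCurve

namespace FA.CM.Quartic

local notation "ℤ[i]" => GaussianInt

/-- `0` and the units. -/
def IsQU (u : ℤ[i]) : Prop := u = 0 ∨ u = 1 ∨ u = ⟨0, 1⟩ ∨ u = -1 ∨ u = ⟨0, -1⟩

theorem IsQU.mul {u v : ℤ[i]} (hu : IsQU u) (hv : IsQU v) : IsQU (u * v) := by
  rcases hu with rfl | rfl | rfl | rfl | rfl <;> rcases hv with rfl | rfl | rfl | rfl | rfl <;>
    unfold IsQU <;> decide

theorem IsQU.star_eq {u : ℤ[i]} (hu : IsQU u) : star u = u ^ 3 := by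
  rcases hu with rfl | rfl | rfl | rfl | rfl <;> decide

variable {K : Type*} [Field K] {j : K}

/-- The homomorphism `i ↦ j`. -/
def evalI (hj : j * j = -1) : ℤ[i] →+* K := Zsqrtd.lift ⟨j, by simpa using hj⟩

theorem evalI_apply (hj : j * j = -1) (x : ℤ[i]) :
    evalI hj x = (x.re : K) + (x.im : K) * j := rfl

open scoped Classical in
/-- The inverse of `evalI` on `0` and the units. -/
def unitLift (j x : K) : ℤ[i] :=
  if x = 1 then 1 else if x = j then ⟨0, 1⟩ else if x = -1 then -1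
    else if x = -j then ⟨0, -1⟩ else 0

theorem isQU_unitLift (j x : K) : IsQU (unitLift j x) := by
  unfold unitLift IsQU; split_ifs <;> simp

theorem evalI_unitLift (hj : j * j = -1) {x : K} (hx : x ^ 4 = 1 ∨ x = 0) :
    evalI hj (unitLift j x) = x := by
  unfold unitLift
  split_ifs with h1 h2 h3 h4 <;> simp only [evalI_apply]
  · simp [h1]
  · simp [h2]
  · simp [h3]
  · simp [h4]
  · rcases hx with h | h
    · exfalso
      have e : (x - 1) * (x + 1) * ((x - j) * (x + j)) = 0 := by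
        linear_combination h - (x ^ 2 - 1) * hj
      rcases mul_eq_zero.mp e with e | e <;> rcases mul_eq_zero.mp e with e | e
      exacts [h1 (sub_eq_zero.mp e), h3 (eq_neg_of_add_eq_zero_left e), h2 (sub_eq_zero.mp e),
        h4 (eq_neg_of_add_eq_zero_left e)]
    · simp [h]

theorem unitLift_evalI (hj : j * j = -1) (h2 : (2 : K) ≠ 0) {u : ℤ[i]} (hu : IsQU u) :
    unitLift j (evalI hj u) = u := by
  have hj0 : j ≠ 0 := fun e => by simp [e] at hj
  have hne : (1 : K) ≠ -1 := fun e => h2 (by linear_combination e)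
  have hj1 : j ≠ 1 := fun e => by rw [e, one_mul] at hj; exact hne hj
  have hj2 : j ≠ -1 := fun e => by
    rw [e, neg_mul_neg, one_mul] at hj; exact hne hj
  have hj3 : j ≠ -j := fun e => h2 ((mul_eq_zero.mp
    (show (2 : K) * j = 0 by linear_combination e)).resolve_right hj0)
  have hj4 : -j ≠ 1 := fun e => hj2 (by linear_combination -e)
  rcases hu with rfl | rfl | rfl | rfl | rfl <;>
    simp [unitLift, evalI_apply, hj1, hj2.symm, hj3.symm, hj4, hne.symm, hj0, hj0.symm,
      neg_inj, eq_comm (a := (0 : K))]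

theorem unitLift_mul (hj : j * j = -1) (h2 : (2 : K) ≠ 0) {x y : K} (hx : x ^ 4 = 1 ∨ x = 0)
    (hy : y ^ 4 = 1 ∨ y = 0) : unitLift j (x * y) = unitLift j x * unitLift j y := by
  conv_lhs => rw [← evalI_unitLift hj hx, ← evalI_unitLift hj hy, ← map_mul]
  rw [unitLift_evalI hj h2 ((isQU_unitLift _ _).mul (isQU_unitLift _ _))]

section prime

variable {p : ℕ} [hp : Fact p.Prime] {j : ZMod p}

theorem mod_four_eq_one (hj : j * j = -1) (hp2 : p ≠ 2) : p % 4 = 1 := by
  have h := (ZMod.exists_sq_eq_neg_one_iff (p := p)).mp ⟨j, hj.symm⟩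
  have := hp.out.eq_two_or_odd
  omega

theorem two_ne_zero' (hp2 : p ≠ 2) : (2 : ZMod p) ≠ 0 :=
  Ring.two_ne_zero ((ZMod.ringChar_zmod_n p).trans_ne hp2)

theorem pow_quarter (hj : j * j = -1) (hp2 : p ≠ 2) (x : ZMod p) :
    (x ^ ((p - 1) / 4)) ^ 4 = 1 ∨ x ^ ((p - 1) / 4) = 0 := by
  have h1 := mod_four_eq_one hj hp2
  have := hp.out.two_le
  rcases eq_or_ne x 0 with rfl | hx
  · exact Or.inr (zero_pow (by omega))
  · refine Or.inl ?_
    rw [← pow_mul, show (p - 1) / 4 * 4 = p - 1 by omega]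
    exact ZMod.pow_card_sub_one_eq_one hx

/-- The quartic character of `𝔽_p` that `i ↦ j` singles out. -/
def quarticChar (hj : j * j = -1) (hp2 : p ≠ 2) : MulChar (ZMod p) ℤ[i] where
  toFun x := unitLift j (x ^ ((p - 1) / 4))
  map_one' := by simp [unitLift]
  map_mul' x y := by
    rw [mul_pow, unitLift_mul hj (two_ne_zero' hp2) (pow_quarter hj hp2 x) (pow_quarter hj hp2 y)]
  map_nonunit' x hx := by
    rw [isUnit_iff_ne_zero, not_not] at hx
    subst hx
    have h1 := mod_four_eq_one hj hp2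
    have := hp.out.two_le
    have hj0 : j ≠ 0 := fun e => by simp [e] at hj
    rw [zero_pow (by omega)]
    simp [unitLift, hj0.symm, eq_comm (a := (0 : ZMod p)), hj0]

variable (hj : j * j = -1) (hp2 : p ≠ 2)

theorem evalI_quarticChar (x : ZMod p) :
    evalI hj (quarticChar hj hp2 x) = x ^ ((p - 1) / 4) :=
  evalI_unitLift hj (pow_quarter hj hp2 x)

theorem isQU_quarticChar (x : ZMod p) : IsQU (quarticChar hj hp2 x) := isQU_unitLift _ _

theorem quarticChar_sq (x : ZMod p) :
    quarticChar hj hp2 x ^ 2 = (quadraticChar (ZMod p) x : ℤ[i]) := by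
  have hq : IsQU ((quadraticChar (ZMod p) x : ℤ) : ℤ[i]) := by
    rcases eq_or_ne x 0 with rfl | hx
    · simp [IsQU]
    · rcases quadraticChar_dichotomy hx with h | h <;> simp [h, IsQU]
  have hl : IsQU (quarticChar hj hp2 x ^ 2) := by
    rw [pow_two]; exact (isQU_quarticChar hj hp2 x).mul (isQU_quarticChar hj hp2 x)
  rw [← unitLift_evalI hj (two_ne_zero' hp2) hl, ← unitLift_evalI hj (two_ne_zero' hp2) hq]
  congr 1
  rw [map_pow, evalI_quarticChar, map_intCast, ← pow_mul]
  have h1 := mod_four_eq_one hj hp2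
  rcases eq_or_ne x 0 with rfl | hx
  · rw [quadraticChar_zero, Int.cast_zero]
    exact zero_pow (by have := hp.out.two_le; omega)
  rw [quadraticChar_eq_pow_of_char_ne_two' ((ZMod.ringChar_zmod_n p).trans_ne hp2) x]
  congr 1
  rw [ZMod.card]
  omega

theorem star_quarticChar (x : ZMod p) :
    star (quarticChar hj hp2 x) = quarticChar hj hp2 x ^ 3 :=
  (isQU_quarticChar hj hp2 x).star_eq

theorem quarticChar_sq_ne_one : quarticChar hj hp2 ^ 2 ≠ 1 := fun h => by
  obtain ⟨n, hn⟩ := quadraticChar_exists_neg_one ((ZMod.ringChar_zmod_n p).trans_ne hp2)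
  have hn0 : n ≠ 0 := fun e => by simp [e] at hn
  have := DFunLike.congr_fun h n
  rw [MulChar.pow_apply' _ two_ne_zero, quarticChar_sq, hn, MulChar.one_apply (Ne.isUnit hn0)] at this
  exact absurd this (by decide)

theorem quarticChar_ne_one : quarticChar hj hp2 ≠ 1 := fun h =>
  quarticChar_sq_ne_one hj hp2 (by rw [h, one_pow])

theorem quarticChar_inv_apply (x : ZMod p) :
    (quarticChar hj hp2)⁻¹ x = star (quarticChar hj hp2 x) := by
  rcases eq_or_ne x 0 with rfl | hx
  · rw [MulChar.map_zero, MulChar.map_zero, star_zero]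
  have h4 : quarticChar hj hp2 x ^ 4 = 1 := by
    rw [show 4 = 2 * 2 from rfl, pow_mul, quarticChar_sq, ← Int.cast_pow, quadraticChar_sq_one hx,
      Int.cast_one]
  have hinv : quarticChar hj hp2 x⁻¹ * quarticChar hj hp2 x = 1 := by
    rw [← map_mul, inv_mul_cancel₀ hx, map_one]
  rw [star_quarticChar, MulChar.inv_apply']
  calc quarticChar hj hp2 x⁻¹ = quarticChar hj hp2 x⁻¹ * quarticChar hj hp2 x ^ 4 := by
        rw [h4, mul_one]
    _ = quarticChar hj hp2 x⁻¹ * quarticChar hj hp2 x * quarticChar hj hp2 x ^ 3 := by ring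
    _ = quarticChar hj hp2 x ^ 3 := by rw [hinv, one_mul]

/-- `π = -χ (-1) J (χ, χ)`. -/
def primaryPrime : ℤ[i] :=
  -(quarticChar hj hp2 (-1)) * jacobiSum (quarticChar hj hp2) (quarticChar hj hp2)

theorem quarticChar_neg_one_sq : quarticChar hj hp2 (-1) * quarticChar hj hp2 (-1) = 1 := by
  rw [← map_mul, neg_one_mul, neg_neg, map_one]

theorem evalI_primaryPrime : evalI hj (primaryPrime hj hp2) = 0 := by
  have h1 := mod_four_eq_one hj hp2
  set m := (p - 1) / 4 with hm
  rw [primaryPrime, map_mul, mul_eq_zero]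
  right
  rw [jacobiSum, map_sum]
  simp only [map_mul, evalI_quarticChar, ← hm, sub_eq_add_neg, add_pow, Finset.mul_sum]
  rw [Finset.sum_comm]
  refine Finset.sum_eq_zero fun k hk => ?_
  rw [Finset.mem_range] at hk
  simp only [one_pow, one_mul]
  rw [Finset.sum_congr rfl fun x _ => show x ^ m * ((-x) ^ (m - k) * (m.choose k : ZMod p)) =
    ((-1) ^ (m - k) * (m.choose k : ZMod p)) * x ^ (m + (m - k)) by rw [neg_pow x, pow_add]; ring,
    ← Finset.mul_sum, FiniteField.sum_pow_lt_card_sub_one _ _ (by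
      rw [ZMod.card]; have := hp.out.two_le; omega), mul_zero]

theorem primaryPrime_mul_star : primaryPrime hj hp2 * star (primaryPrime hj hp2) = (p : ℤ[i]) := by
  set χ := quarticChar hj hp2 with hχdef
  have hJ : star (jacobiSum χ χ) = jacobiSum χ⁻¹ χ⁻¹ := by
    rw [jacobiSum, jacobiSum, star_sum]
    exact Finset.sum_congr rfl fun x _ => by
      rw [star_mul', hχdef, quarticChar_inv_apply, quarticChar_inv_apply]
  have hj' : jacobiSum χ χ * jacobiSum χ⁻¹ χ⁻¹ = (p : ℤ[i]) := by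
    apply GaussianInt.toComplex_injective
    have hinj := GaussianInt.toComplex_injective
    have hne : ∀ {ψ : MulChar (ZMod p) ℤ[i]}, ψ ≠ 1 →
        ψ.ringHomComp GaussianInt.toComplex ≠ 1 := fun hψ e =>
      hψ (MulChar.ringHomComp_eq_one_iff hinj |>.mp e)
    rw [map_mul, ← jacobiSum_ringHomComp, ← jacobiSum_ringHomComp, map_natCast,
      ← MulChar.ringHomComp_inv]
    rw [jacobiSum_mul_jacobiSum_inv (by
        rw [ZMod.ringChar_zmod_n, ringChar.eq_zero]; exact hp.out.ne_zero.symm)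
      (hne (quarticChar_ne_one hj hp2)) (hne (quarticChar_ne_one hj hp2))
      (by rw [← MulChar.ringHomComp_mul, ← pow_two]; exact hne (quarticChar_sq_ne_one hj hp2)),
      ZMod.card]
  have e : star (χ (-1)) = χ (-1) := by
    rw [hχdef, star_quarticChar, pow_succ, pow_two, quarticChar_neg_one_sq, one_mul]
  rw [primaryPrime, star_mul', star_neg, e, hJ]
  calc _ = χ (-1) * χ (-1) * (jacobiSum χ χ * jacobiSum χ⁻¹ χ⁻¹) := by ring
    _ = _ := by rw [quarticChar_neg_one_sq, one_mul, hj']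

theorem norm_primaryPrime : (primaryPrime hj hp2).norm = p := by
  have h := primaryPrime_mul_star hj hp2
  rw [← Zsqrtd.norm_eq_mul_conj] at h
  exact_mod_cast h

/-- `J (χ, χ²) = χ 4 J (χ, χ)`. -/
theorem jacobiSum_quartic_quadratic :
    ∑ v : ZMod p, quarticChar hj hp2 v * (quadraticChar (ZMod p) (1 - v) : ℤ[i]) =
      quarticChar hj hp2 4 * jacobiSum (quarticChar hj hp2) (quarticChar hj hp2) := by
  classical
  set χ := quarticChar hj hp2
  have hF : ringChar (ZMod p) ≠ 2 := (ZMod.ringChar_zmod_n p).trans_ne hp2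
  have h2 := two_ne_zero' hp2
  have h4 : (4 : ZMod p) ≠ 0 := by
    rw [show (4 : ZMod p) = 2 * 2 by norm_num]; exact mul_ne_zero h2 h2
  have hfib : jacobiSum χ χ =
      ∑ t : ZMod p, χ t * ((quadraticChar (ZMod p) (1 - 4 * t) : ℤ[i]) + 1) := by
    rw [jacobiSum, Finset.sum_congr rfl fun x _ => (map_mul χ x (1 - x)).symm,
      ← Finset.sum_fiberwise Finset.univ (fun x => x * (1 - x))]
    refine Finset.sum_congr rfl fun t _ => ?_
    rw [Finset.sum_congr rfl fun x hx => congrArg χ (Finset.mem_filter.mp hx).2, Finset.sum_const,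
      nsmul_eq_mul, mul_comm]
    congr 1
    suffices e : ((Finset.univ.filter fun x : ZMod p => x * (1 - x) = t).card : ℤ) =
        quadraticChar (ZMod p) (1 - 4 * t) + 1 by
      have := congrArg (Int.cast : ℤ → ℤ[i]) e
      push_cast at this
      exact this
    rw [← quadraticChar_card_sqrts hF, Nat.cast_inj]
    refine Finset.card_bij' (fun x _ => 2 * x - 1) (fun y _ => (y + 1) / 2) (fun x hx => ?_)
      (fun y hy => ?_) (fun x _ => by field_simp; ring) fun y _ => by field_simp; ring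
    · simp only [Finset.mem_filter, Finset.mem_univ, true_and] at hx
      simp only [Set.mem_toFinset, Set.mem_ofPred_eq]
      linear_combination -4 * hx
    · simp only [Set.mem_toFinset, Set.mem_ofPred_eq] at hy
      simp only [Finset.mem_filter, Finset.mem_univ, true_and]
      field_simp
      linear_combination -hy
  rw [hfib]
  simp only [mul_add, mul_one, Finset.sum_add_distrib,
    MulChar.sum_eq_zero_of_ne_one (quarticChar_ne_one hj hp2), add_zero, χ]
  rw [Finset.mul_sum]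
  refine (Fintype.sum_equiv (Equiv.mulLeft₀ 4 h4) _ _ fun t => ?_).symm
  rw [show Equiv.mulLeft₀ (4 : ZMod p) h4 t = 4 * t from rfl, map_mul, mul_assoc]

/-- The sum for `y² = x³ + D x`. -/
theorem sum_quadraticChar_quartic {D : ZMod p} (hD : D ≠ 0) :
    ((∑ x : ZMod p, quadraticChar (ZMod p) (x ^ 3 + D * x) : ℤ) : ℤ[i]) =
      -(quarticChar hj hp2 (4 * D ^ 3) * primaryPrime hj hp2 +
        star (quarticChar hj hp2 (4 * D ^ 3) * primaryPrime hj hp2)) := by
  classical
  set χ := quarticChar hj hp2 with hχ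
  set ρ := quadraticChar (ZMod p)
  have hF : ringChar (ZMod p) ≠ 2 := (ZMod.ringChar_zmod_n p).trans_ne hp2
  have hT : ∑ u : ZMod p, χ u * (ρ (u + D) : ℤ[i]) = -(χ (4 * D ^ 3) * primaryPrime hj hp2) := by
    rw [← Fintype.sum_equiv (Equiv.mulLeft₀ (-D) (neg_ne_zero.mpr hD))
      (fun v => χ (-D * v) * (ρ (-D * v + D) : ℤ[i])) _ fun v => rfl]
    rw [Finset.sum_congr rfl fun v _ => show χ (-D * v) * (ρ (-D * v + D) : ℤ[i]) =
        χ (-1) * χ D ^ 3 * (χ v * (ρ (1 - v) : ℤ[i])) by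
      rw [show -D * v + D = D * (1 - v) by ring, map_mul ρ, Int.cast_mul, ← quarticChar_sq hj hp2 D,
        show -D * v = -1 * D * v by ring, map_mul, map_mul]
      ring, ← Finset.mul_sum, hχ, jacobiSum_quartic_quadratic, ← hχ, primaryPrime, ← hχ,
      map_mul, map_pow]
    ring
  have hx : ∀ x : ZMod p, ((ρ (x ^ 3 + D * x) : ℤ) : ℤ[i]) = χ (x ^ 2) * (ρ (x ^ 2 + D) : ℤ[i]) :=
    fun x => by
    rw [show x ^ 3 + D * x = x * (x ^ 2 + D) by ring, map_mul, Int.cast_mul, map_pow,
      hχ, quarticChar_sq]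
  rw [Int.cast_sum, Finset.sum_congr rfl fun x _ => hx x, ← Finset.sum_fiberwise Finset.univ (· ^ 2)]
  rw [Finset.sum_congr rfl fun u _ => show
      ∑ x ∈ Finset.univ.filter (fun x => x ^ 2 = u), χ (x ^ 2) * (ρ (x ^ 2 + D) : ℤ[i]) =
        χ u * (ρ (u + D) : ℤ[i]) + star (χ u * (ρ (u + D) : ℤ[i])) by
    rw [Finset.sum_congr rfl fun x hx => by rw [(Finset.mem_filter.mp hx).2], Finset.sum_const,
      nsmul_eq_mul, star_mul', star_intCast, hχ, star_quarticChar, pow_succ (n := 2),
      quarticChar_sq,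
      show ((Finset.univ.filter fun x : ZMod p => x ^ 2 = u).card : ℤ[i]) = (ρ u : ℤ[i]) + 1 by
        have e : ((Finset.univ.filter fun x : ZMod p => x ^ 2 = u).card : ℤ) = ρ u + 1 :=
          (congrArg (fun s : Finset (ZMod p) => (s.card : ℤ)) (by ext; simp)).trans
            (quadraticChar_card_sqrts hF u)
        have := congrArg (Int.cast : ℤ → ℤ[i]) e
        push_cast at this
        exact this]
    ring]
  rw [Finset.sum_add_distrib, ← star_sum, hT, star_neg]
  ring

theorem quarticChar_neg (hj' : -j * -j = -1) (x : ZMod p) :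
    quarticChar hj' hp2 x = star (quarticChar hj hp2 x) := by
  have h2 := two_ne_zero' hp2
  have hs : IsQU (star (quarticChar hj hp2 x)) := by
    rcases isQU_quarticChar hj hp2 x with e | e | e | e | e <;> rw [e] <;> unfold IsQU <;> decide
  rw [← unitLift_evalI hj' h2 (isQU_quarticChar hj' hp2 x), ← unitLift_evalI hj' h2 hs]
  congr 1
  rw [evalI_quarticChar, ← evalI_quarticChar hj hp2, evalI_apply, evalI_apply]
  simp

/-- `-4 = (1 + j)⁴`. -/
theorem quarticChar_neg_four : quarticChar hj hp2 (-4) = 1 := by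
  have h2 := two_ne_zero' hp2
  refine (unitLift_evalI hj h2 (isQU_quarticChar hj hp2 _)).symm.trans ?_
  rw [evalI_quarticChar]
  have h : (1 + j) ≠ 0 := fun e => h2 (by linear_combination (1 - j) * e + hj)
  have h1 := mod_four_eq_one hj hp2
  rw [show (-4 : ZMod p) = (1 + j) ^ 4 by linear_combination -(j ^ 2 + 4 * j + 5) * hj, ← pow_mul,
    show 4 * ((p - 1) / 4) = p - 1 by omega, ZMod.pow_card_sub_one_eq_one h]
  simp [unitLift]

end prime

section model

variable {p : ℕ} [hp : Fact p.Prime]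

/-- The trace at an odd prime of good reduction as a character sum. -/
theorem apOfModel_quartic (hp2 : p ≠ 2) {D : ℤ} (hD : (D : ZMod p) ≠ 0) :
    (⟨0, 0, 0, D, 0⟩ : WeierstrassCurve ℤ).apOfModel p =
      -∑ x : ZMod p, quadraticChar (ZMod p) (x ^ 3 + (D : ZMod p) * x) := by
  classical
  have hF : ringChar (ZMod p) ≠ 2 := (ZMod.ringChar_zmod_n p).trans_ne hp2
  set U : WeierstrassCurve (ZMod p) := ⟨0, 0, 0, (D : ZMod p), 0⟩ with hU
  have hmap : (⟨0, 0, 0, D, 0⟩ : WeierstrassCurve ℤ).map (Int.castRingHom (ZMod p)) = U := by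
    ext <;> simp [hU]
  have hΔ : U.Δ ≠ 0 := by
    rw [show U.Δ = -(2 ^ 6 * (D : ZMod p) ^ 3) by
      simp only [hU, WeierstrassCurve.Δ, b₂, b₄, b₆, b₈]; ring]
    exact neg_ne_zero.mpr (mul_ne_zero (pow_ne_zero _ (two_ne_zero' hp2)) (pow_ne_zero _ hD))
  have hsum : ∀ x : ZMod p, quadraticChar (ZMod p) (4 * x ^ 3 + U.b₂ * x ^ 2 + 2 * U.b₄ * x + U.b₆) =
      quadraticChar (ZMod p) (x ^ 3 + (D : ZMod p) * x) := fun x => by
    rw [show 4 * x ^ 3 + U.b₂ * x ^ 2 + 2 * U.b₄ * x + U.b₆ =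
        2 ^ 2 * (x ^ 3 + (D : ZMod p) * x) by simp only [hU, b₂, b₄, b₆]; ring, map_mul,
      quadraticChar_sq_one' (two_ne_zero' hp2), one_mul]
  rw [apOfModel, reductionMod, hmap, traceOfFrobenius, WeierstrassCurve.card,
    FA.Twists.natCard_point_eq_sum hF U hΔ, Nat.card_eq_fintype_card, Finset.sum_congr rfl fun x _ => hsum x]
  ring

theorem apOfModel_quartic_three (hp3 : p % 4 = 3) {D : ℤ} (hD : (D : ZMod p) ≠ 0) :
    (⟨0, 0, 0, D, 0⟩ : WeierstrassCurve ℤ).apOfModel p = 0 := by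
  classical
  rw [apOfModel_quartic (by omega) hD, neg_eq_zero]
  set S := ∑ x : ZMod p, quadraticChar (ZMod p) (x ^ 3 + (D : ZMod p) * x) with hS
  have hneg : quadraticChar (ZMod p) (-1) = -1 :=
    quadraticChar_neg_one_iff_not_isSquare.mpr fun h =>
      ((ZMod.exists_sq_eq_neg_one_iff (p := p)).mp h) hp3
  have h : S = -S := by
    rw [hS, ← Finset.sum_neg_distrib]
    refine Fintype.sum_equiv (Equiv.neg _) _ _ fun x => ?_
    rw [Equiv.neg_apply, show (-x) ^ 3 + (D : ZMod p) * -x = -1 * (x ^ 3 + (D : ZMod p) * x) by ring,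
      map_mul, hneg]
    ring
  omega

variable {j : ZMod p} (hj : j * j = -1) (hp2 : p ≠ 2)

/-- The trace at a prime `p ≡ 1 (mod 4)`. -/
theorem apOfModel_quartic_one {D : ℤ} (hD : (D : ZMod p) ≠ 0) :
    ((⟨0, 0, 0, D, 0⟩ : WeierstrassCurve ℤ).apOfModel p : ℤ[i]) =
      quarticChar hj hp2 (4 * (D : ZMod p) ^ 3) * primaryPrime hj hp2 +
        star (quarticChar hj hp2 (4 * (D : ZMod p) ^ 3) * primaryPrime hj hp2) := by
  rw [apOfModel_quartic hp2 hD, Int.cast_neg, sum_quadraticChar_quartic hj hp2 hD, neg_neg]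

/-- `π` is primary. -/
theorem primaryPrime_primary : (primaryPrime hj hp2).im % 2 = 0 ∧
    ((primaryPrime hj hp2).re + (primaryPrime hj hp2).im) % 4 = 1 := by
  have h1 := mod_four_eq_one hj hp2
  obtain ⟨k, b, hab, heven, hap⟩ := FA.CM.exists_apOfModel_curve32 (p := p) h1
  have hD : ((-1 : ℤ) : ZMod p) ≠ 0 := by simp
  have h := apOfModel_quartic_one hj hp2 hD
  rw [show (⟨0, 0, 0, -1, 0⟩ : WeierstrassCurve ℤ) = FA.CM.curve32 from rfl, hap,
    show (4 : ZMod p) * ((-1 : ℤ) : ZMod p) ^ 3 = -4 by push_cast; ring,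
    quarticChar_neg_four, one_mul] at h
  have hre : 2 * (2 * k + 1) = 2 * (primaryPrime hj hp2).re := by
    have := congrArg Zsqrtd.re h
    simp only [Zsqrtd.re_intCast, Zsqrtd.re_add, Zsqrtd.re_star] at this
    linarith
  have hn := norm_primaryPrime hj hp2
  rw [Zsqrtd.norm_def, hab] at hn
  set a := (primaryPrime hj hp2).re
  set c := (primaryPrime hj hp2).im
  have hc : (c - 2 * b) * (c + 2 * b) = 0 := by
    rw [show 2 * k + 1 = a by omega] at hn
    linarith
  rw [Int.even_iff] at heven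
  rcases mul_eq_zero.mp hc with e | e <;> constructor <;> omega

end model

end FA.CM.Quartic

end
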