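import Fermat.Agent.CM.Quartic.LFunction

/-!
# The function on the lattice of a curve with `j = 1728`

It is `φ (α)` on primary `α`, `-φ (-α)` on their negatives and `0` elsewhere: periodic modulo
`64 |D|³`, and multiplied by `χ₄ (d)` under `α ↦ d α` for `d` prime to the period.
-/

set_option autoImplicit false

noncomputable section

namespace FA.CM.Quartic

local notation "ℤ[i]" => GaussianInt

open scoped Classical in
/-- `φ` on the primary elements. -/
def primaryPart (φ : ℤ[i] → ℤ[i]) (α : ℤ[i]) : ℤ[i] := if IsPrimary α then φ α else 0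

/-- The function on `ℤ²`. -/
def latticeWeight (φ : ℤ[i] → ℤ[i]) (a b : ℤ) : ℂ :=
  GaussianInt.toComplex (primaryPart φ ⟨a, b⟩ - primaryPart φ (-⟨a, b⟩))

variable {D : ℤ} {φ : ℤ[i] → ℤ[i]}

theorem primaryPart_periodic (hφ : IsWeight D φ) (α γ : ℤ[i]) :
    primaryPart φ (α + ((16 * D : ℤ) : ℤ[i]) * γ) = primaryPart φ α := by
  classical
  have h : IsPrimary (α + ((16 * D : ℤ) : ℤ[i]) * γ) ↔ IsPrimary α := by
    have e1 : (α + ((16 * D : ℤ) : ℤ[i]) * γ).re = α.re + 4 * (4 * D * γ.re) := by simp; ring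
    have e2 : (α + ((16 * D : ℤ) : ℤ[i]) * γ).im = α.im + 4 * (4 * D * γ.im) := by simp; ring
    simp only [IsPrimary, e1, e2]
    omega
  simp only [primaryPart, h, hφ.periodic]

theorem latticeWeight_periodic (hφ : IsWeight D φ) (a b s t : ℤ) :
    latticeWeight φ (a + 16 * D * s) (b + 16 * D * t) = latticeWeight φ a b := by
  have e : (⟨a + 16 * D * s, b + 16 * D * t⟩ : ℤ[i]) =
      ⟨a, b⟩ + ((16 * D : ℤ) : ℤ[i]) * ⟨s, t⟩ := by
    refine Zsqrtd.ext ?_ ?_ <;> simp
  have e' : -(⟨a + 16 * D * s, b + 16 * D * t⟩ : ℤ[i]) =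
      -⟨a, b⟩ + ((16 * D : ℤ) : ℤ[i]) * ⟨-s, -t⟩ := by
    refine Zsqrtd.ext ?_ ?_ <;> simp <;> ring
  rw [latticeWeight, latticeWeight, e', e, primaryPart_periodic hφ, primaryPart_periodic hφ]

theorem primaryPart_intCast_mul (hφ : IsWeight D φ) {d : ℤ} (hd4 : d % 4 = 1)
    (hd : IsCoprime d D) (α : ℤ[i]) : primaryPart φ ((d : ℤ[i]) * α) = primaryPart φ α := by
  classical
  have hdp := isPrimary_intCast hd4
  by_cases h : IsPrimary α
  · rw [primaryPart, primaryPart, if_pos (hdp.mul h), if_pos h, hφ.map_mul _ _ hdp h,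
      hφ.map_int d hd4 hd, one_mul]
  · rw [primaryPart, primaryPart, if_neg h, if_neg fun h' => h (hdp.of_mul h')]

theorem latticeWeight_intCast_mul (hφ : IsWeight D φ) {d : ℤ} (hd : IsCoprime d (16 * D))
    (a b : ℤ) : latticeWeight φ (d * a) (d * b) = (ZMod.χ₄ (d : ZMod 4) : ℂ) * latticeWeight φ a b := by
  have hdD : IsCoprime d D := hd.of_mul_right_right
  have hodd : d % 2 = 1 := by
    by_contra h
    have h2 : (2 : ℤ) ∣ d := Int.dvd_of_emod_eq_zero (by omega)
    exact absurd (Int.natAbs_of_isUnit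
      (hd.isUnit_of_dvd' h2 ((dvd_mul_right 2 8).trans (by norm_num)))) (by decide)
  have e : (⟨d * a, d * b⟩ : ℤ[i]) = (d : ℤ[i]) * ⟨a, b⟩ := by
    refine Zsqrtd.ext ?_ ?_ <;> simp
  rw [latticeWeight, latticeWeight, e, ZMod.χ₄_int_eq_if_mod_four, if_neg (by omega)]
  rcases (show d % 4 = 1 ∨ d % 4 = 3 by omega) with h | h
  · rw [if_pos h, Int.cast_one, one_mul, ← mul_neg, primaryPart_intCast_mul hφ h hdD,
      primaryPart_intCast_mul hφ h hdD]
  · rw [if_neg (by omega), show (d : ℤ[i]) * ⟨a, b⟩ = ((-d : ℤ) : ℤ[i]) * -⟨a, b⟩ by push_cast; ring,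
      ← mul_neg, neg_neg, primaryPart_intCast_mul hφ (by omega) hdD.neg_left,
      primaryPart_intCast_mul hφ (by omega) hdD.neg_left, map_sub, map_sub]
    push_cast
    ring

/-- **The theta coefficients.** -/
theorem sum_latticeWeight (n : ℕ) {s : Finset (ℤ × ℤ)}
    (hs : ∀ v : ℤ × ℤ, v ∈ s ↔ v.1 ^ 2 + v.2 ^ 2 = (n : ℤ)) :
    ∑ v ∈ s, latticeWeight φ v.1 v.2 * ((v.1 : ℂ) + (v.2 : ℂ) * Complex.I) =
      2 * GaussianInt.toComplex (primarySum φ n) := by
  classical
  have key : ∑ v ∈ s, GaussianInt.toComplex (primaryPart φ ⟨v.1, v.2⟩ * ⟨v.1, v.2⟩) =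
      GaussianInt.toComplex (primarySum φ n) := by
    rw [primarySum, map_sum]
    refine (Finset.sum_subset_zero_on_sdiff (s₁ := (s.filter fun v => IsPrimary ⟨v.1, v.2⟩))
      (Finset.filter_subset _ _) (fun v hv => ?_) fun v _ => rfl).symm.trans ?_
    · simp only [Finset.mem_sdiff, Finset.mem_filter, not_and] at hv
      rw [primaryPart, if_neg (hv.2 hv.1), zero_mul, map_zero]
    refine Finset.sum_bij (fun v _ => (⟨v.1, v.2⟩ : ℤ[i])) (fun v hv => ?_) (fun u _ v _ h => ?_)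
      (fun α hα => ?_) fun v hv => ?_
    · rw [Finset.mem_filter, hs] at hv
      exact mem_primarySet.mpr ⟨hv.2, by rw [Zsqrtd.norm_def, ← hv.1]; ring⟩
    · exact Prod.ext (congrArg Zsqrtd.re h) (congrArg Zsqrtd.im h)
    · obtain ⟨h, hn⟩ := mem_primarySet.mp hα
      refine ⟨(α.re, α.im), ?_, rfl⟩
      rw [Finset.mem_filter, hs]
      exact ⟨by rw [← hn, Zsqrtd.norm_def]; ring, h⟩
    · rw [primaryPart, if_pos (Finset.mem_filter.mp hv).2]
  have key' : ∑ v ∈ s, GaussianInt.toComplex (primaryPart φ (-⟨v.1, v.2⟩) * ⟨v.1, v.2⟩) =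
      -GaussianInt.toComplex (primarySum φ n) := by
    rw [← key, ← Finset.sum_neg_distrib]
    refine Finset.sum_nbij' (fun v => (-v.1, -v.2)) (fun v => (-v.1, -v.2)) (fun v hv => ?_)
      (fun v hv => ?_) (fun v _ => by simp) (fun v _ => by simp) fun v _ => ?_
    · exact (hs _).mpr (by simpa using (hs v).mp hv)
    · exact (hs _).mpr (by simpa using (hs v).mp hv)
    · rw [← map_neg, ← mul_neg,
        show (⟨(-v.1, -v.2).1, (-v.1, -v.2).2⟩ : ℤ[i]) = -⟨v.1, v.2⟩ from rfl, neg_neg]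
  simp only [map_mul, GaussianInt.toComplex_def'] at key key'
  simp only [latticeWeight, map_sub, sub_mul, Finset.sum_sub_distrib, key, key']
  ring

end FA.CM.Quartic

end
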